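import Fermat.Agent.PowerReciprocity.JacobiPrime
import Fermat.Agent.FermatCount.Basic

/-!
# The Fermat curve over a residue field

At a prime `P ∤ l` of `ℚ(ζ_l)` the `l` points at infinity and the affine points of `x ^ l + y ^ l = 1` number
`N P + 1 - ∑ J_{a,b}(P)`, the sum over the `(l - 1) (l - 2)` pairs with `a`, `b`, `a + b` prime to `l`.
-/

set_option autoImplicit false
set_option linter.unusedSectionVars false

noncomputable section

open NumberField IsDedekindDomain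
open scoped Classical

namespace FA.PowerReciprocity

open FA.GaussValuation FA.FermatCount

variable {K : Type*} [Field K] [NumberField K] {l : ℕ} [hl : Fact l.Prime] [IsCyclotomicExtension {l} ℚ K]

/-- The character of the symbol. -/
theorem exists_symbolChar (hl2 : l ≠ 2) {P : Ideal (𝓞 K)} [hP : P.IsMaximal] [Fintype (𝓞 K ⧸ P)]
    (hlP : (l : 𝓞 K) ∉ P) :
    ∃ χ : MulChar (𝓞 K ⧸ P) (𝓞 K), ∀ x, χ (Ideal.Quotient.mk P x) = symbolPrime l P x := by
  obtain ⟨q, hq, hqP, -⟩ := exists_prime_mem P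
  have := Fact.mk hq
  let v : HeightOneSpectrum (𝓞 K) :=
    ⟨P, hP.isPrime, Ring.ne_bot_of_isMaximal_of_not_isField hP (RingOfIntegers.not_isField K)⟩
  obtain ⟨Φ, -, -, -, -, h5⟩ := exists_phi_prime (v := v) hl2 hqP fun e => hlP (by
    obtain ⟨c, rfl⟩ := e
    rw [Nat.cast_mul]
    exact P.mul_mem_right _ hqP)
  let : Fintype (𝓞 K ⧸ v.asIdeal) := ‹Fintype (𝓞 K ⧸ P)›
  obtain ⟨χ, hχ, -⟩ := h5
  exact ⟨χ, hχ⟩

/-- **The number of points of the Fermat curve.** -/
theorem card_fermat_residue (hl2 : l ≠ 2) {P : Ideal (𝓞 K)} [P.IsMaximal] (hlP : (l : 𝓞 K) ∉ P) :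
    ((Nat.card {p : (𝓞 K ⧸ P) × (𝓞 K ⧸ P) // p.1 ^ l + p.2 ^ l = 1} + l : ℕ) : 𝓞 K) =
      (Ideal.absNorm P : 𝓞 K) + 1 -
        ∑ a ∈ Finset.Icc 1 (l - 1), ∑ b ∈ (Finset.Icc 1 (l - 1)).erase (l - a), jacobiPrime l a b P := by
  let := Fintype.ofFinite (𝓞 K ⧸ P)
  let := Ideal.Quotient.field P
  obtain ⟨χ, hχ⟩ := exists_symbolChar hl2 hlP
  obtain ⟨φ⟩ : Nonempty (K →+* ℂ) := inferInstance
  set g := φ.comp (algebraMap (𝓞 K) K)
  have hinj : Function.Injective g := φ.injective.comp RingOfIntegers.coe_injective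
  set F : ℕ → MulChar (𝓞 K ⧸ P) ℂ := fun a => (χ ^ a).ringHomComp g
  set I := Finset.Icc 1 (l - 1)
  have hnd : ∀ a ∈ I, ¬ l ∣ a := fun a ha e => by
    rw [Finset.mem_Icc] at ha
    have := Nat.le_of_dvd (by omega) e
    omega
  have hχl := char_pow_card hlP hχ
  have hord : orderOf χ = l := orderOf_eq_prime hχl (by
    simpa using char_pow_ne_one hlP hχ (k := 1) fun e => hl.out.ne_one (Nat.dvd_one.mp e))
  have hF : Set.InjOn F I := fun a ha b hb e => by
    rw [Finset.mem_coe, Finset.mem_Icc] at ha hb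
    exact pow_injOn_Iio_orderOf (x := χ) (show a < orderOf χ by omega) (show b < orderOf χ by omega)
      (MulChar.injective_ringHomComp hinj e)
  have hgcd : Nat.gcd l (Fintype.card (𝓞 K ⧸ P) - 1) = l :=
    Nat.gcd_eq_left (card_quotient (P := P) ▸ dvd_absNorm_sub_one hlP)
  have hS : (killed (𝓞 K ⧸ P) l).erase 1 = I.image F := by
    refine (Finset.eq_of_subset_of_card_le (fun ψ hψ => ?_) ?_).symm
    · obtain ⟨a, ha, rfl⟩ := Finset.mem_image.mp hψ
      refine Finset.mem_erase.mpr ⟨(MulChar.ringHomComp_ne_one_iff hinj).mpr (char_pow_ne_one hlP hχ (hnd a ha)),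
        mem_killed.mpr ?_⟩
      rw [MulChar.ringHomComp_pow, ← pow_mul, mul_comm, pow_mul, hχl, one_pow, MulChar.ringHomComp_one]
    · rw [Finset.card_image_of_injOn hF, Finset.card_erase_of_mem one_mem_killed, card_killed, hgcd]
      simp [I]
  have hinv : ∀ a ∈ I, (F a)⁻¹ = F (l - a) ∧ l - a ∈ I := fun a ha => by
    rw [Finset.mem_Icc] at ha
    refine ⟨inv_eq_of_mul_eq_one_right ?_, Finset.mem_Icc.mpr ⟨by omega, by omega⟩⟩
    rw [← MulChar.ringHomComp_mul, ← pow_add, Nat.add_sub_cancel' (by omega), hχl, MulChar.ringHomComp_one]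
  have herase : ∀ a ∈ I, (I.image F).erase (F a)⁻¹ = (I.erase (l - a)).image F := fun a ha => by
    obtain ⟨h1, h2⟩ := hinv a ha
    rw [h1]
    refine Finset.ext fun ψ => ?_
    simp only [Finset.mem_erase, Finset.mem_image]
    constructor
    · rintro ⟨hne, b, hb, rfl⟩
      exact ⟨b, ⟨fun e => hne (e ▸ rfl), hb⟩, rfl⟩
    · rintro ⟨b, ⟨hne, hb⟩, rfl⟩
      exact ⟨fun e => hne (hF hb h2 e), b, hb, rfl⟩
  have hroots : (roots (𝓞 K ⧸ P) l (-1)).card = l := by
    refine ((Finset.card_bij (fun t _ => -t) (fun t ht => ?_) (fun t _ t' _ e => neg_inj.mp e)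
      fun t ht => ⟨-t, ?_, neg_neg t⟩).trans ((card_roots_one hl.out.pos).trans hgcd))
    · rw [mem_roots] at ht ⊢
      rw [(hl.out.odd_of_ne_two hl2).neg_pow, ht, neg_neg]
    · rw [mem_roots] at ht ⊢
      rw [(hl.out.odd_of_ne_two hl2).neg_pow, ht]
  have haff : Nat.card {p : (𝓞 K ⧸ P) × (𝓞 K ⧸ P) // p.1 ^ l + p.2 ^ l = 1} =
      (affinePoints (𝓞 K ⧸ P) l).card := by
    rw [Nat.card_eq_fintype_card, Fintype.card_subtype]
    rfl
  have key : ((affinePoints (𝓞 K ⧸ P) l).card : ℂ) + (roots (𝓞 K ⧸ P) l (-1)).card =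
      (Fintype.card (𝓞 K ⧸ P) : ℂ) + 1 + ∑ ψ ∈ (killed (𝓞 K ⧸ P) l).erase 1,
        ∑ ψ' ∈ ((killed (𝓞 K ⧸ P) l).erase 1).erase ψ⁻¹, jacobiSum ψ ψ' := by
    convert card_points (F := 𝓞 K ⧸ P) hl.out.pos
  rw [hroots, card_quotient, hS, Finset.sum_image hF] at key
  refine hinj ?_
  rw [map_natCast, Nat.cast_add, haff, key, map_sub, map_add, map_one, map_natCast, map_sum, sub_eq_add_neg,
    ← Finset.sum_neg_distrib]
  refine congrArg (_ + ·) (Finset.sum_congr rfl fun a ha => ?_)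
  rw [herase a ha, Finset.sum_image (hF.mono (Finset.coe_subset.mpr (Finset.erase_subset _ _))), map_sum,
    ← Finset.sum_neg_distrib]
  refine Finset.sum_congr rfl fun b hb => ?_
  rw [jacobiPrime_eq hχ (show a ≠ 0 from fun e => hnd a ha (e ▸ dvd_zero l))
    (show b ≠ 0 from fun e => hnd b (Finset.mem_of_mem_erase hb) (e ▸ dvd_zero l)), map_neg, neg_neg]
  exact jacobiSum_ringHomComp _ _ g

end FA.PowerReciprocity
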