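import Fermat.Agent.GaussValuation.Conjugates

/-!
# The power residue symbol

For a prime `P` of `ℚ(ζ_l)` prime to `l` and `x ∉ P` it is the `l`-th root of unity congruent to
`x ^ ((N P - 1) / l)` modulo `P`; it is extended to ideals multiplicatively, with value `0` at `x ∈ P`.
-/

set_option autoImplicit false
set_option linter.unusedSectionVars false

noncomputable section

open NumberField IsDedekindDomain UniqueFactorizationMonoid
open scoped Classical

namespace FA.PowerReciprocity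

variable {K : Type*} [Field K] [NumberField K]

/-- The symbol at a prime. -/
def symbolPrime (l : ℕ) (P : Ideal (𝓞 K)) (x : 𝓞 K) : 𝓞 K :=
  if h : ∃ c : 𝓞 K, c ^ l = 1 ∧ x ^ ((Ideal.absNorm P - 1) / l) - c ∈ P then h.choose else 0

/-- **The power residue symbol** `(x / I)`. -/
def symbol (l : ℕ) (I : Ideal (𝓞 K)) (x : 𝓞 K) : 𝓞 K :=
  ((normalizedFactors I).map fun P => symbolPrime l P x).prod

theorem natCast_notMem {n : ℕ} {P : Ideal (𝓞 K)} (hP : P ≠ ⊤) (h : n.Coprime (Ideal.absNorm P)) :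
    (n : 𝓞 K) ∉ P := by
  intro hn
  refine hP ((Ideal.eq_top_iff_one P).mpr ?_)
  have hg : (Nat.gcd n (Ideal.absNorm P) : ℤ) =
      n * Nat.gcdA n (Ideal.absNorm P) + Ideal.absNorm P * Nat.gcdB n (Ideal.absNorm P) :=
    Nat.gcd_eq_gcd_ab n (Ideal.absNorm P)
  rw [h, Nat.cast_one] at hg
  have h1 := congrArg (Int.cast : ℤ → 𝓞 K) hg
  push_cast at h1
  rw [h1]
  exact add_mem (P.mul_mem_right _ hn) (P.mul_mem_right _ (Ideal.absNorm_mem P))

theorem coprime_of_dvd {n : ℕ} {I J : Ideal (𝓞 K)} (hd : I ∣ J) (h : n.Coprime (Ideal.absNorm J)) :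
    n.Coprime (Ideal.absNorm I) :=
  h.coprime_dvd_right (map_dvd Ideal.absNorm hd)

variable {l : ℕ} [hl : Fact l.Prime] [IsCyclotomicExtension {l} ℚ K]

theorem zetaInt_isPrimitiveRoot :
    IsPrimitiveRoot (IsCyclotomicExtension.zeta_spec l ℚ K).toInteger l :=
  (IsCyclotomicExtension.zeta_spec l ℚ K).toInteger_isPrimitiveRoot

section prime

variable {P : Ideal (𝓞 K)} [hP : P.IsMaximal]

omit hl [IsCyclotomicExtension {l} ℚ K] in
theorem card_quotient [Fintype (𝓞 K ⧸ P)] : Fintype.card (𝓞 K ⧸ P) = Ideal.absNorm P := by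
  rw [Ideal.absNorm_apply, Submodule.cardQuot_apply, Nat.card_eq_fintype_card]

/-- `l` divides `N P - 1`. -/
theorem dvd_absNorm_sub_one (hlP : (l : 𝓞 K) ∉ P) : l ∣ Ideal.absNorm P - 1 := by
  let := Fintype.ofFinite (𝓞 K ⧸ P)
  let := Ideal.Quotient.field P
  have hz := FA.GaussValuation.isPrimitiveRoot_mk hlP (zetaInt_isPrimitiveRoot (l := l) (K := K))
  rw [← card_quotient]
  exact hz.dvd_of_pow_eq_one _ (FiniteField.pow_card_sub_one_eq_one _ (hz.ne_zero hl.out.ne_zero))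

theorem pow_residue_eq_one (hlP : (l : 𝓞 K) ∉ P) {x : 𝓞 K} (hx : x ∉ P) :
    (Ideal.Quotient.mk P x ^ ((Ideal.absNorm P - 1) / l)) ^ l = 1 := by
  let := Fintype.ofFinite (𝓞 K ⧸ P)
  let := Ideal.Quotient.field P
  rw [← pow_mul, Nat.div_mul_cancel (dvd_absNorm_sub_one hlP), ← card_quotient]
  exact FiniteField.pow_card_sub_one_eq_one _ fun h => hx (Ideal.Quotient.eq_zero_iff_mem.mp h)

theorem exponent_ne_zero (hlP : (l : 𝓞 K) ∉ P) : (Ideal.absNorm P - 1) / l ≠ 0 := by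
  intro h
  have h1 := (Nat.div_mul_cancel (dvd_absNorm_sub_one hlP)).symm
  rw [h, zero_mul] at h1
  let := Fintype.ofFinite (𝓞 K ⧸ P)
  have := Fintype.one_lt_card (α := 𝓞 K ⧸ P)
  rw [card_quotient] at this
  omega

/-- The defining property. -/
theorem symbolPrime_spec (hlP : (l : 𝓞 K) ∉ P) {x : 𝓞 K} (hx : x ∉ P) :
    symbolPrime l P x ^ l = 1 ∧
      Ideal.Quotient.mk P (symbolPrime l P x) = Ideal.Quotient.mk P x ^ ((Ideal.absNorm P - 1) / l) := by
  have hz := zetaInt_isPrimitiveRoot (l := l) (K := K)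
  have : NeZero l := ⟨hl.out.ne_zero⟩
  obtain ⟨i, -, hi⟩ := (FA.GaussValuation.isPrimitiveRoot_mk hlP hz).eq_pow_of_pow_eq_one
    (pow_residue_eq_one hlP hx)
  have h : ∃ c : 𝓞 K, c ^ l = 1 ∧ x ^ ((Ideal.absNorm P - 1) / l) - c ∈ P :=
    ⟨_ ^ i, by rw [← pow_mul, mul_comm, pow_mul, hz.pow_eq_one, one_pow],
      by rw [← Ideal.Quotient.eq_zero_iff_mem, map_sub, map_pow, map_pow, hi, sub_self]⟩
  rw [symbolPrime, dif_pos h]
  refine ⟨h.choose_spec.1, ?_⟩
  rw [← map_pow, Ideal.Quotient.eq]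
  rw [← neg_sub]
  exact P.neg_mem h.choose_spec.2

theorem symbolPrime_eq_zero (hlP : (l : 𝓞 K) ∉ P) {x : 𝓞 K} (hx : x ∈ P) : symbolPrime l P x = 0 := by
  rw [symbolPrime, dif_neg]
  rintro ⟨c, hc, hcP⟩
  have hxr := Ideal.pow_mem_of_mem P hx _ (Nat.pos_of_ne_zero (exponent_ne_zero hlP))
  have hcP' : c ∈ P := by
    have := sub_mem hxr hcP
    rwa [sub_sub_cancel] at this
  have h1 := P.pow_mem_of_mem hcP' l hl.out.pos
  rw [hc] at h1
  exact hP.ne_top ((Ideal.eq_top_iff_one P).mpr h1)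

/-- Uniqueness. -/
theorem symbolPrime_eq (hlP : (l : 𝓞 K) ∉ P) {x c : 𝓞 K} (hc : c ^ l = 1)
    (h : Ideal.Quotient.mk P c = Ideal.Quotient.mk P x ^ ((Ideal.absNorm P - 1) / l)) :
    symbolPrime l P x = c := by
  have hx : x ∉ P := fun hx => by
    rw [Ideal.Quotient.eq_zero_iff_mem.mpr hx, zero_pow (exponent_ne_zero hlP), Ideal.Quotient.eq_zero_iff_mem] at h
    have h1 := P.pow_mem_of_mem h l hl.out.pos
    rw [hc] at h1
    exact hP.ne_top ((Ideal.eq_top_iff_one P).mpr h1)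
  have : NeZero l := ⟨hl.out.ne_zero⟩
  obtain ⟨hs, hs'⟩ := symbolPrime_spec hlP hx
  exact FA.GaussValuation.eq_of_mk_eq hlP hs hc (hs'.trans h.symm)

theorem symbolPrime_mul (hlP : (l : 𝓞 K) ∉ P) (x y : 𝓞 K) :
    symbolPrime l P (x * y) = symbolPrime l P x * symbolPrime l P y := by
  by_cases hx : x ∈ P
  · rw [symbolPrime_eq_zero hlP (P.mul_mem_right _ hx), symbolPrime_eq_zero hlP hx, zero_mul]
  by_cases hy : y ∈ P
  · rw [symbolPrime_eq_zero hlP (P.mul_mem_left _ hy), symbolPrime_eq_zero hlP hy, mul_zero]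
  obtain ⟨hx1, hx2⟩ := symbolPrime_spec hlP hx
  obtain ⟨hy1, hy2⟩ := symbolPrime_spec hlP hy
  exact symbolPrime_eq hlP (by rw [mul_pow, hx1, hy1, one_mul]) (by rw [map_mul, hx2, hy2, map_mul, mul_pow])

theorem symbolPrime_one (hlP : (l : 𝓞 K) ∉ P) : symbolPrime l P 1 = 1 :=
  symbolPrime_eq hlP (one_pow l) (by rw [map_one, one_pow])

theorem symbolPrime_congr (hlP : (l : 𝓞 K) ∉ P) {x y : 𝓞 K} (h : x - y ∈ P) :
    symbolPrime l P x = symbolPrime l P y := by
  by_cases hy : y ∈ P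
  · have hx : x ∈ P := by simpa using add_mem h hy
    rw [symbolPrime_eq_zero hlP hx, symbolPrime_eq_zero hlP hy]
  obtain ⟨h1, h2⟩ := symbolPrime_spec hlP hy
  exact symbolPrime_eq hlP h1 (by rw [h2, Ideal.Quotient.eq.mpr h])

/-- **The symbol detects `l`-th powers.** -/
theorem symbolPrime_eq_one_iff (hlP : (l : 𝓞 K) ∉ P) {x : 𝓞 K} (hx : x ∉ P) :
    symbolPrime l P x = 1 ↔ ∃ y, x - y ^ l ∈ P := by
  let := Fintype.ofFinite (𝓞 K ⧸ P)
  let := Ideal.Quotient.field P
  obtain ⟨hs, hs'⟩ := symbolPrime_spec hlP hx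
  constructor
  · intro h
    rw [h, map_one] at hs'
    set r := (Ideal.absNorm P - 1) / l with hr
    obtain ⟨g, hg⟩ := IsCyclic.exists_generator (α := (𝓞 K ⧸ P)ˣ)
    have hx0 : Ideal.Quotient.mk P x ≠ 0 := fun h => hx (Ideal.Quotient.eq_zero_iff_mem.mp h)
    obtain ⟨k, hk⟩ := Submonoid.mem_powers_iff _ _ |>.mp (mem_powers_iff_mem_zpowers.mpr (hg (Units.mk0 _ hx0)))
    have hord : orderOf g = l * r := by
      rw [orderOf_eq_card_of_forall_mem_zpowers hg, Nat.card_units, Nat.card_eq_fintype_card, card_quotient, hr,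
        Nat.mul_div_cancel' (dvd_absNorm_sub_one hlP)]
    have hpow : g ^ (k * r) = 1 := by
      rw [pow_mul, hk]
      exact Units.ext (by rw [Units.val_pow_eq_pow_val, Units.val_mk0, ← hs', Units.val_one])
    rw [← orderOf_dvd_iff_pow_eq_one, hord] at hpow
    obtain ⟨t, rfl⟩ := (Nat.mul_dvd_mul_iff_right (Nat.pos_of_ne_zero (exponent_ne_zero hlP))).mp hpow
    obtain ⟨y, hy⟩ := Ideal.Quotient.mk_surjective ((g ^ t : (𝓞 K ⧸ P)ˣ) : 𝓞 K ⧸ P)
    refine ⟨y, Ideal.Quotient.eq.mp ?_⟩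
    rw [map_pow, hy, ← Units.val_pow_eq_pow_val, ← pow_mul, mul_comm, hk, Units.val_mk0]
  · rintro ⟨y, hy⟩
    refine symbolPrime_eq hlP (one_pow l) ?_
    have hy' : y ∉ P := fun h => hx (by
      have := add_mem hy (P.pow_mem_of_mem h l hl.out.pos)
      rwa [sub_add_cancel] at this)
    rw [map_one, Ideal.Quotient.eq.mpr hy, map_pow, ← pow_mul, Nat.mul_div_cancel' (dvd_absNorm_sub_one hlP),
      ← card_quotient]
    exact (FiniteField.pow_card_sub_one_eq_one _ fun h => hy' (Ideal.Quotient.eq_zero_iff_mem.mp h)).symm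

/-- Equivariance at a prime. -/
theorem symbolPrime_map (hlP : (l : 𝓞 K) ∉ P) (e : 𝓞 K ≃+* 𝓞 K) (x : 𝓞 K) :
    symbolPrime l (P.map (e : 𝓞 K →+* 𝓞 K)) (e x) = e (symbolPrime l P x) := by
  have hmem : ∀ y, e y ∈ P.map (e : 𝓞 K →+* 𝓞 K) ↔ y ∈ P := fun y => by
    rw [Ideal.mem_map_iff_of_surjective (e : 𝓞 K →+* 𝓞 K) e.surjective]
    exact ⟨fun ⟨z, hz, hzy⟩ => e.injective hzy ▸ hz, fun h => ⟨y, h, rfl⟩⟩
  have : (P.map (e : 𝓞 K →+* 𝓞 K)).IsMaximal := Ideal.map_isMaximal_of_equiv e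
  have hlP' : (l : 𝓞 K) ∉ P.map (e : 𝓞 K →+* 𝓞 K) := fun h => hlP ((hmem _).mp (by rwa [map_natCast]))
  have hN : Ideal.absNorm (P.map (e : 𝓞 K →+* 𝓞 K)) = Ideal.absNorm P := by
    simp only [Ideal.absNorm_apply, Submodule.cardQuot_apply]
    exact (Nat.card_congr (Ideal.quotientEquiv P _ e rfl).toEquiv).symm
  by_cases hx : x ∈ P
  · rw [symbolPrime_eq_zero hlP hx, symbolPrime_eq_zero hlP' ((hmem x).mpr hx), map_zero]
  obtain ⟨hs, hs'⟩ := symbolPrime_spec hlP hx
  refine symbolPrime_eq hlP' (by rw [← map_pow, hs, map_one]) ?_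
  rw [← map_pow, hN, Ideal.Quotient.eq, ← map_pow, ← map_sub, hmem, ← Ideal.Quotient.eq, map_pow, hs']

end prime

section ideal

variable {I J : Ideal (𝓞 K)}

theorem good_of_mem_factors (h : l.Coprime (Ideal.absNorm I)) {P : Ideal (𝓞 K)} (hP : P ∈ normalizedFactors I) :
    P.IsMaximal ∧ (l : 𝓞 K) ∉ P := by
  have hp := prime_of_normalized_factor P hP
  have : P.IsMaximal := (Ideal.isPrime_of_prime hp).isMaximal hp.ne_zero
  exact ⟨this, natCast_notMem this.ne_top (coprime_of_dvd (dvd_of_mem_normalizedFactors hP) h)⟩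

omit hl [IsCyclotomicExtension {l} ℚ K] in
theorem symbol_mul_left (hI : I ≠ 0) (hJ : J ≠ 0) (x : 𝓞 K) :
    symbol l (I * J) x = symbol l I x * symbol l J x := by
  rw [symbol, normalizedFactors_mul hI hJ, Multiset.map_add, Multiset.prod_add]
  rfl

omit hl [IsCyclotomicExtension {l} ℚ K] in
theorem symbol_top (x : 𝓞 K) : symbol l ⊤ x = 1 := by
  rw [symbol, ← Ideal.one_eq_top, normalizedFactors_one, Multiset.map_zero, Multiset.prod_zero]

omit hl [IsCyclotomicExtension {l} ℚ K] in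
theorem symbol_prime (hI : Prime I) (x : 𝓞 K) : symbol l I x = symbolPrime l I x := by
  rw [symbol, normalizedFactors_irreducible hI.irreducible, normalize_eq, Multiset.map_singleton,
    Multiset.prod_singleton]

omit hl [IsCyclotomicExtension {l} ℚ K] in
theorem symbol_pow_left (hI : I ≠ 0) (n : ℕ) (x : 𝓞 K) : symbol l (I ^ n) x = symbol l I x ^ n := by
  rw [symbol, normalizedFactors_pow, Multiset.map_nsmul, Multiset.prod_nsmul]
  rfl

omit hl [IsCyclotomicExtension {l} ℚ K] in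
theorem symbol_prod_left {α : Type*} (s : Finset α) (g : α → Ideal (𝓞 K)) (h : ∀ i ∈ s, g i ≠ 0) (x : 𝓞 K) :
    symbol l (∏ i ∈ s, g i) x = ∏ i ∈ s, symbol l (g i) x := by
  induction s using Finset.induction_on with
  | empty => rw [Finset.prod_empty, Finset.prod_empty, Ideal.one_eq_top, symbol_top]
  | insert a s ha ih =>
    rw [Finset.prod_insert ha, Finset.prod_insert ha, symbol_mul_left (h a (Finset.mem_insert_self a s))
      (Finset.prod_ne_zero_iff.mpr fun i hi => h i (Finset.mem_insert_of_mem hi)),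
      ih fun i hi => h i (Finset.mem_insert_of_mem hi)]

theorem symbol_mul_right (hI : l.Coprime (Ideal.absNorm I)) (x y : 𝓞 K) :
    symbol l I (x * y) = symbol l I x * symbol l I y := by
  rw [symbol, symbol, symbol, ← Multiset.prod_map_mul]
  refine congrArg Multiset.prod (Multiset.map_congr rfl fun P hP => ?_)
  obtain ⟨h1, h2⟩ := good_of_mem_factors hI hP
  exact symbolPrime_mul h2 x y

theorem symbol_one_right (hI : l.Coprime (Ideal.absNorm I)) : symbol l I 1 = 1 := by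
  refine Multiset.prod_eq_one fun c hc => ?_
  obtain ⟨P, hP, rfl⟩ := Multiset.mem_map.mp hc
  obtain ⟨h1, h2⟩ := good_of_mem_factors hI hP
  exact symbolPrime_one h2

theorem symbol_pow_right (hI : l.Coprime (Ideal.absNorm I)) (x : 𝓞 K) (n : ℕ) :
    symbol l I (x ^ n) = symbol l I x ^ n := by
  induction n with
  | zero => rw [pow_zero, pow_zero, symbol_one_right hI]
  | succ n ih => rw [pow_succ, pow_succ, symbol_mul_right hI, ih]

theorem symbol_prod_right (hI : l.Coprime (Ideal.absNorm I)) {α : Type*} (s : Finset α) (g : α → 𝓞 K) :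
    symbol l I (∏ i ∈ s, g i) = ∏ i ∈ s, symbol l I (g i) := by
  induction s using Finset.induction_on with
  | empty => rw [Finset.prod_empty, Finset.prod_empty, symbol_one_right hI]
  | insert a s ha ih => rw [Finset.prod_insert ha, Finset.prod_insert ha, symbol_mul_right hI, ih]

/-- The symbol depends on `x` modulo `I` only. -/
theorem symbol_congr (hI : l.Coprime (Ideal.absNorm I)) {x y : 𝓞 K} (h : x - y ∈ I) :
    symbol l I x = symbol l I y := by
  refine congrArg Multiset.prod (Multiset.map_congr rfl fun P hP => ?_)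
  obtain ⟨h1, h2⟩ := good_of_mem_factors hI hP
  exact symbolPrime_congr h2 (Ideal.le_of_dvd (dvd_of_mem_normalizedFactors hP) h)

/-- An element prime to the ideal. -/
def PrimeTo (I : Ideal (𝓞 K)) (x : 𝓞 K) : Prop := ∀ P ∈ normalizedFactors I, x ∉ P

theorem symbol_pow_card (hI : l.Coprime (Ideal.absNorm I)) {x : 𝓞 K} (hx : PrimeTo I x) :
    symbol l I x ^ l = 1 := by
  rw [symbol, ← Multiset.prod_map_pow]
  refine Multiset.prod_eq_one fun c hc => ?_
  obtain ⟨P, hP, rfl⟩ := Multiset.mem_map.mp hc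
  obtain ⟨h1, h2⟩ := good_of_mem_factors hI hP
  exact (symbolPrime_spec h2 (hx P hP)).1

omit hl [IsCyclotomicExtension {l} ℚ K] in
theorem primeTo_natCast {n : ℕ} (h : n.Coprime (Ideal.absNorm I)) : PrimeTo I (n : 𝓞 K) := fun P hP =>
  natCast_notMem (Ideal.isPrime_of_prime (prime_of_normalized_factor P hP)).ne_top
    (coprime_of_dvd (dvd_of_mem_normalizedFactors hP) h)

omit hl [IsCyclotomicExtension {l} ℚ K] in
theorem primeTo_of_coprime {x : 𝓞 K} (h : (Ideal.absNorm (Ideal.span {x})).Coprime (Ideal.absNorm I)) :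
    PrimeTo I x := fun P hP hx => by
  have hd := coprime_of_dvd (dvd_of_mem_normalizedFactors hP) h
  have hd' := map_dvd Ideal.absNorm (Ideal.dvd_span_singleton.mpr hx)
  exact (Ideal.isPrime_of_prime (prime_of_normalized_factor P hP)).ne_top
    (Ideal.absNorm_eq_one_iff.mp (Nat.dvd_one.mp (hd ▸ Nat.dvd_gcd hd' dvd_rfl)))

/-- The value at `-1` is `1` for odd `l`. -/
theorem symbol_neg_one (hl2 : l ≠ 2) (hI : l.Coprime (Ideal.absNorm I)) : symbol l I (-1) = 1 := by
  have hp : PrimeTo I (-1 : 𝓞 K) := fun P hP h =>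
    (Ideal.isPrime_of_prime (prime_of_normalized_factor P hP)).ne_top
      ((Ideal.eq_top_iff_one P).mpr (by simpa using P.neg_mem h))
  have h := symbol_pow_right hI (-1 : 𝓞 K) l
  rwa [(hl.out.odd_of_ne_two hl2).neg_one_pow, symbol_pow_card hI hp] at h

/-- Equivariance. -/
theorem symbol_map (hI : l.Coprime (Ideal.absNorm I)) (hI0 : I ≠ 0) (e : 𝓞 K ≃+* 𝓞 K) (x : 𝓞 K) :
    symbol l (I.map (e : 𝓞 K →+* 𝓞 K)) (e x) = e (symbol l I x) := by
  induction I using induction_on_prime with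
  | h₁ => exact absurd rfl hI0
  | h₂ J hJ => rw [isUnit_iff_eq_one.mp hJ, Ideal.one_eq_top, Ideal.map_top, symbol_top, symbol_top, map_one]
  | h₃ J P hJ hP ih =>
    have hP' := coprime_of_dvd (dvd_mul_right P J) hI
    have := (Ideal.isPrime_of_prime hP).isMaximal hP.ne_zero
    have hlP : (l : 𝓞 K) ∉ P := natCast_notMem this.ne_top hP'
    have hPm : Prime (P.map (e : 𝓞 K →+* 𝓞 K)) := Ideal.prime_of_isPrime
      (fun h => hP.ne_zero ((Ideal.map_eq_bot_iff_of_injective e.injective).mp h)) (Ideal.map_isPrime_of_equiv e)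
    have hJm : J.map (e : 𝓞 K →+* 𝓞 K) ≠ 0 := fun h => hJ ((Ideal.map_eq_bot_iff_of_injective e.injective).mp h)
    rw [Ideal.map_mul, symbol_mul_left hPm.ne_zero hJm, symbol_mul_left hP.ne_zero hJ, symbol_prime hPm,
      symbol_prime hP, symbolPrime_map hlP, map_mul, ih (coprime_of_dvd (dvd_mul_left J P) hI) hJ]

end ideal

end FA.PowerReciprocity
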