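import Fermat.Agent.PowerReciprocity.Eisenstein
import Mathlib.NumberTheory.NumberField.Cyclotomic.Three
import Mathlib.NumberTheory.NumberField.Cyclotomic.PID

/-!
# The law of cubic reciprocity

For semi-primary `α`, `β` with coprime norms, `(α ^ γ / β) = (N β / α)` and its mirror give `(α / β) = (β / α)`. Two
conjugate primes are settled by Eisenstein's law at their integral sum, and the general case by factorisation.
-/

set_option autoImplicit false
set_option linter.unusedSectionVars false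

noncomputable section

open NumberField IsDedekindDomain UniqueFactorizationMonoid
open scoped Classical

namespace FA.PowerReciprocity

open FA.IwasawaStructure FA.GaussValuation

variable {K : Type*} [Field K] [NumberField K]

/-- A prime dividing a norm lies in a maximal ideal over the element. -/
theorem exists_maximal_of_dvd_absNorm {x : 𝓞 K} (hx : x ≠ 0) {q : ℕ} (hq : q.Prime)
    (hd : q ∣ Ideal.absNorm (Ideal.span {x})) : ∃ P : Ideal (𝓞 K), P.IsMaximal ∧ x ∈ P ∧ (q : 𝓞 K) ∈ P := by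
  rw [← Ideal.prod_normalizedFactors_eq_self (show Ideal.span {x} ≠ 0 by simpa using hx), map_multiset_prod] at hd
  obtain ⟨P, hP, hqP⟩ := hq.prime.exists_mem_multiset_map_dvd hd
  have hmax := (Ideal.isPrime_of_prime (prime_of_normalized_factor P hP)).isMaximal
    (prime_of_normalized_factor P hP).ne_zero
  obtain ⟨p, hp, hpP, -⟩ := exists_prime_mem P
  have hxP : x ∈ P := Ideal.le_of_dvd (dvd_of_mem_normalizedFactors hP) (Ideal.mem_span_singleton_self x)
  refine ⟨P, hmax, hxP, ?_⟩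
  by_contra hqP'
  have hco : q.Coprime p := (Nat.coprime_primes hq hp).mpr fun e => hqP' (e ▸ hpP)
  obtain ⟨e, he⟩ : ∃ e, Ideal.absNorm P = p ^ e := by
    let := Fintype.ofFinite (𝓞 K ⧸ P)
    let := Ideal.Quotient.field P
    have : CharP (𝓞 K ⧸ P) p := by
      refine (CharP.charP_iff_prime_eq_zero hp).mpr ?_
      rw [← map_natCast (Ideal.Quotient.mk P), Ideal.Quotient.eq_zero_iff_mem]
      exact hpP
    obtain ⟨e, -, he⟩ := FiniteField.card (𝓞 K ⧸ P) p
    exact ⟨e, by rw [← card_quotient, he]⟩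
  rw [he] at hqP
  exact hq.coprime_iff_not_dvd.mp (hco.pow_right e) hqP

/-- Coprime elements, one of them rational, have coprime norms. -/
theorem coprime_natAbs_absNorm {x : 𝓞 K} (hx : x ≠ 0) {a : ℤ}
    (h : IsCoprime (Ideal.span {x}) (Ideal.span {(a : 𝓞 K)})) :
    a.natAbs.Coprime (Ideal.absNorm (Ideal.span {x})) := by
  refine Nat.coprime_of_dvd fun q hq hqa hqx => ?_
  obtain ⟨P, hP, hxP, hqP⟩ := exists_maximal_of_dvd_absNorm hx hq hqx
  have haP : (a : 𝓞 K) ∈ P := by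
    obtain ⟨t, ht⟩ := Int.natCast_dvd.mpr hqa
    rw [ht, Int.cast_mul, Int.cast_natCast]
    exact P.mul_mem_right _ hqP
  refine hP.ne_top (top_le_iff.mp ?_)
  rw [← Ideal.isCoprime_iff_sup_eq.mp h]
  exact sup_le ((Ideal.span_singleton_le_iff_mem P).mpr hxP) ((Ideal.span_singleton_le_iff_mem P).mpr haP)

variable [IsCyclotomicExtension {3} ℚ K]

local notation "z3" => IsPrimitiveRoot.toInteger (IsCyclotomicExtension.zeta_spec 3 ℚ K)

omit [NumberField K] [IsCyclotomicExtension {3} ℚ K] in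
theorem symbol_span_neg [NumberField K] (x y : 𝓞 K) :
    symbol 3 (Ideal.span {-x}) y = symbol 3 (Ideal.span {x}) y := by rw [Ideal.span_singleton_neg]

theorem symbol_neg_right {I : Ideal (𝓞 K)} (hI : Nat.Coprime 3 (Ideal.absNorm I)) (x : 𝓞 K) :
    symbol 3 I (-x) = symbol 3 I x := by
  rw [neg_eq_neg_one_mul, symbol_mul_right hI, symbol_neg_one (by norm_num) hI, one_mul]

/-- The nontrivial automorphism. -/
theorem exists_conj_three : ∃ c : K ≃ₐ[ℚ] K, c ≠ 1 ∧ c * c = 1 ∧ c⁻¹ = c ∧ expo 3 c = 2 ∧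
    expo 3 (1 : K ≃ₐ[ℚ] K) = 1 ∧ ∀ σ : K ≃ₐ[ℚ] K, σ = 1 ∨ σ = c := by
  obtain ⟨c, hc, hexp, -⟩ := exists_conj (l := 3) (K := K)
  have h1 : expo 3 (1 : K ≃ₐ[ℚ] K) = 1 := by rw [expo, map_one, Units.val_one, ZMod.val_one]
  have h2 : expo 3 c = 2 := by
    have := hexp 1
    rw [one_mul, h1] at this
    omega
  have hne : c ≠ 1 := fun e => by rw [e, h1] at h2; omega
  refine ⟨c, hne, hc, inv_eq_of_mul_eq_one_right hc, h2, h1, fun σ => ?_⟩
  have : IsGalois ℚ K := IsCyclotomicExtension.isGalois {3} ℚ K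
  have hcard : Fintype.card (K ≃ₐ[ℚ] K) = 2 := by
    rw [← Nat.card_eq_fintype_card, Nat.card_congr (IsCyclotomicExtension.Rat.galEquivZMod 3 K).toEquiv,
      Nat.card_eq_fintype_card, ZMod.card_units]
  by_contra h
  push Not at h
  have := Finset.card_le_univ ({1, c, σ} : Finset (K ≃ₐ[ℚ] K))
  rw [hcard, Finset.card_eq_three.mpr ⟨1, c, σ, hne.symm, h.1.symm, h.2.symm, rfl⟩] at this
  omega

section laws

variable {c : K ≃ₐ[ℚ] K} (hne : c ≠ 1) (hall : ∀ σ : K ≃ₐ[ℚ] K, σ = 1 ∨ σ = c) (hinv : c⁻¹ = c)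
  (hc2 : expo 3 c = 2) (hc1 : expo 3 (1 : K ≃ₐ[ℚ] K) = 1)

omit [IsCyclotomicExtension {3} ℚ K] in
include hne hall in
theorem prod_univ {M : Type*} [CommMonoid M] (g : (K ≃ₐ[ℚ] K) → M) : ∏ σ, g σ = g 1 * g c :=
  Fintype.prod_eq_mul 1 c hne.symm fun x hx => absurd (hall x) (not_or.mpr hx)

include hne hall hinv hc2 hc1 in
theorem stickPow_three (x : 𝓞 K) : stickPow 3 x = x * intAut c x ^ 2 := by
  rw [stickPow, prod_univ hne hall, hc1, hc2, inv_one, hinv, pow_one,
    show intAut (1 : K ≃ₐ[ℚ] K) x = x from RingOfIntegers.ext rfl]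

include hne hall in
theorem natCast_absNorm_eq (x : 𝓞 K) :
    ((Ideal.absNorm (Ideal.span {x}) : ℕ) : 𝓞 K) = x * intAut c x ∨
      ((Ideal.absNorm (Ideal.span {x}) : ℕ) : 𝓞 K) = -(x * intAut c x) := by
  have : IsGalois ℚ K := IsCyclotomicExtension.isGalois {3} ℚ K
  have h : ((Algebra.norm ℤ x : ℤ) : 𝓞 K) = x * intAut c x := by
    refine RingOfIntegers.ext ?_
    show algebraMap (𝓞 K) K ((Algebra.norm ℤ x : ℤ) : 𝓞 K) = algebraMap (𝓞 K) K (x * intAut c x)
    rw [map_intCast, map_mul]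
    show ((Algebra.norm ℤ x : ℤ) : K) = (x : K) * c (x : K)
    rw [← Rat.cast_intCast, Algebra.coe_norm_int, ← eq_ratCast (algebraMap ℚ K), Algebra.norm_eq_prod_automorphisms,
      prod_univ hne hall]
    rfl
  rw [Ideal.absNorm_span_singleton]
  rcases Int.natAbs_eq (Algebra.norm ℤ x) with e | e
  · left
    rw [← h]
    nth_rewrite 2 [e]
    rw [Int.cast_natCast]
  · right
    rw [← h]
    nth_rewrite 2 [e]
    rw [Int.cast_neg, Int.cast_natCast, neg_neg]

omit [IsCyclotomicExtension {3} ℚ K] in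
theorem absNorm_span_intAut (σ : K ≃ₐ[ℚ] K) (x : 𝓞 K) :
    Ideal.absNorm (Ideal.span {intAut σ x}) = Ideal.absNorm (Ideal.span {x}) := by
  rw [show Ideal.span {intAut σ x} = (Ideal.span {x}).map (intAut σ : 𝓞 K →+* 𝓞 K) by
    rw [Ideal.map_span, Set.image_singleton]; rfl]
  simp only [Ideal.absNorm_apply, Submodule.cardQuot_apply]
  exact (Nat.card_congr (Ideal.quotientEquiv (Ideal.span {x}) _ (intAut σ) rfl).toEquiv).symm

include hne hall hinv hc2 hc1 in
theorem cubic_relation {α β : 𝓞 K} (hα : IsSemiPrimary 3 α) (hβ : IsSemiPrimary 3 β)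
    (h : (Ideal.absNorm (Ideal.span {α})).Coprime (Ideal.absNorm (Ideal.span {β}))) :
    symbol 3 (Ideal.span {β}) α * symbol 3 (Ideal.span {β}) (intAut c α) ^ 2 =
      symbol 3 (Ideal.span {α}) β * symbol 3 (Ideal.span {α}) (intAut c β) := by
  have hI : Ideal.span {β} ≠ 0 := by simpa using hβ.ne_zero
  have key := (symbol_absNorm_eq (by norm_num) hα hI hβ.coprime h).1
  rw [stickPow_three hne hall hinv hc2 hc1, symbol_mul_right hβ.coprime, symbol_pow_right hβ.coprime] at key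
  rw [key]
  rcases natCast_absNorm_eq hne hall β with e | e
  · rw [e, symbol_mul_right hα.coprime]
  · rw [e, symbol_neg_right hα.coprime, symbol_mul_right hα.coprime]

include hne hall hinv hc2 hc1 in
/-- Coprime norms. -/
theorem cubic_of_coprime_absNorm {α β : 𝓞 K} (hα : IsSemiPrimary 3 α) (hβ : IsSemiPrimary 3 β)
    (h : (Ideal.absNorm (Ideal.span {α})).Coprime (Ideal.absNorm (Ideal.span {β}))) :
    symbol 3 (Ideal.span {β}) α = symbol 3 (Ideal.span {α}) β := by
  have e1 := cubic_relation hne hall hinv hc2 hc1 hα hβ h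
  have e2 := cubic_relation hne hall hinv hc2 hc1 hβ hα h.symm
  have ha := symbol_pow_card hβ.coprime (primeTo_of_coprime h)
  have hb := symbol_pow_card hβ.coprime (primeTo_of_coprime ((absNorm_span_intAut c α).symm ▸ h))
  have hc := symbol_pow_card hα.coprime (primeTo_of_coprime h.symm)
  have hd := symbol_pow_card hα.coprime (primeTo_of_coprime ((absNorm_span_intAut c β).symm ▸ h.symm))
  generalize symbol 3 (Ideal.span {β}) α = a, symbol 3 (Ideal.span {β}) (intAut c α) = b,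
    symbol 3 (Ideal.span {α}) β = a', symbol 3 (Ideal.span {α}) (intAut c β) = d at *
  have h1 : a * a = a' * a' := by
    calc a * a = a * a * b ^ 3 := by rw [hb, mul_one]
      _ = (a * b ^ 2) * (a * b) := by ring
      _ = (a' * d) * (a' * d ^ 2) := by rw [e1, ← e2]
      _ = a' * a' * d ^ 3 := by ring
      _ = a' * a' := by rw [hd, mul_one]
  calc a = a * a * (a * a) := by linear_combination -a * ha
    _ = a' * a' * (a' * a') := by rw [h1]
    _ = a' := by linear_combination a' * hc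

include hne hall hinv in
/-- Two conjugate primes. -/
theorem cubic_conj {π : 𝓞 K} (hπ : IsSemiPrimary 3 π) (hp : Prime π)
    (hna : ¬ Associated π (intAut c π)) :
    symbol 3 (Ideal.span {π}) (intAut c π) = 1 ∧ symbol 3 (Ideal.span {intAut c π}) π = 1 := by
  have : IsGalois ℚ K := IsCyclotomicExtension.isGalois {3} ℚ K
  have hinvol : ∀ x, intAut c (intAut c x) = x := fun x => by
    conv_lhs => arg 1; rw [← hinv]
    exact intAut_mul_inv c x
  have : IsGaloisGroup (K ≃ₐ[ℚ] K) ℤ (𝓞 K) := IsGaloisGroup.of_isFractionRing _ ℤ (𝓞 K) ℚ K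
  obtain ⟨T, hT⟩ := Algebra.IsInvariant.isInvariant (A := ℤ) (B := 𝓞 K) (G := K ≃ₐ[ℚ] K) (π + intAut c π) fun g => by
    show intAut g (π + intAut c π) = π + intAut c π
    rcases hall g with rfl | rfl
    · exact RingOfIntegers.ext rfl
    · rw [map_add, hinvol, add_comm]
  have hT' : (T : 𝓞 K) = π + intAut c π := hT
  have hπc : ∀ n : ℤ, (z3 - 1) ^ 2 ∣ π - (n : 𝓞 K) → (z3 - 1) ^ 2 ∣ intAut c π - (n : 𝓞 K) := fun n hn => by
    obtain ⟨t, ht⟩ := hn
    have h := congrArg (intAut c) ht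
    rw [map_sub, map_intCast, map_mul, map_pow, map_sub, map_one,
      intAut_of_pow_eq_one c (zetaInt_isPrimitiveRoot (l := 3) (K := K)).pow_eq_one] at h
    rw [h]
    exact ((zetaInt_isPrimitiveRoot (l := 3) (K := K)).associated_sub_one_pow_sub_one_of_coprime
      (coprime_expo c)).pow_pow.dvd.mul_right _
  obtain ⟨n, hn, hπn⟩ := isSemiPrimary_iff.mp hπ
  have hTn : ¬ (3 : ℤ) ∣ T := fun h3 => hn (by
    have hl : z3 - 1 ∣ ((T - 2 * n : ℤ) : 𝓞 K) := by
      rw [Int.cast_sub, hT', Int.cast_mul, Int.cast_ofNat,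
        show π + intAut c π - 2 * (n : 𝓞 K) = (π - (n : 𝓞 K)) + (intAut c π - (n : 𝓞 K)) by ring]
      exact dvd_trans (dvd_pow_self _ two_ne_zero) (dvd_add hπn (hπc n hπn))
    rw [lambda_dvd_iff] at hl
    omega)
  have hco : T.natAbs.Coprime (Ideal.absNorm (Ideal.span {π})) := by
    refine Nat.coprime_of_dvd fun q hq hqT hqπ => hna ?_
    obtain ⟨P, hP, hπP, hqP⟩ := exists_maximal_of_dvd_absNorm hπ.ne_zero hq hqπ
    have hPeq : Ideal.span {π} = P :=
      (((Ideal.span_singleton_prime hp.ne_zero).mpr hp).isMaximal (by simpa using hp.ne_zero)).eq_of_le hP.ne_top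
        ((Ideal.span_singleton_le_iff_mem P).mpr hπP)
    obtain ⟨t, ht⟩ := Int.natCast_dvd.mpr hqT
    have hmem : intAut c π ∈ P := by
      rw [show intAut c π = (T : 𝓞 K) - π by rw [hT']; ring]
      refine sub_mem ?_ hπP
      rw [ht, Int.cast_mul, Int.cast_natCast]
      exact P.mul_mem_right _ hqP
    rw [← hPeq, Ideal.mem_span_singleton] at hmem
    exact hp.associated_of_dvd ((MulEquiv.prime_iff (intAut c).toMulEquiv).mpr hp) hmem
  have hI : Nat.Coprime 3 (Ideal.absNorm (Ideal.span {(T : 𝓞 K)})) := by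
    rw [Ideal.absNorm_span_singleton, ← eq_intCast (algebraMap ℤ (𝓞 K)), Algebra.norm_algebraMap, Int.natAbs_pow]
    exact ((Nat.Prime.coprime_iff_not_dvd Nat.prime_three).mpr fun e => hTn (Int.natCast_dvd.mpr e)).pow_right _
  have hI0 : Ideal.span {(T : 𝓞 K)} ≠ 0 := by
    simp only [Ideal.zero_eq_bot, ne_eq, Ideal.span_singleton_eq_bot, Int.cast_eq_zero]
    exact fun e => hTn (e ▸ dvd_zero _)
  set s := symbol 3 (Ideal.span {(T : 𝓞 K)}) π with hs
  have hs3 : s ^ 3 = 1 := symbol_pow_card hI (primeTo_of_coprime (by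
    rw [Ideal.absNorm_span_singleton (r := (T : 𝓞 K)), ← eq_intCast (algebraMap ℤ (𝓞 K)), Algebra.norm_algebraMap,
      Int.natAbs_pow]
    exact hco.symm.pow_right _))
  have hcs : symbol 3 (Ideal.span {(T : 𝓞 K)}) (intAut c π) = intAut c s := by
    rw [hs, ← symbol_map hI hI0, Ideal.map_span, Set.image_singleton, RingEquiv.coe_toRingHom, map_intCast]
  have hsame : symbol 3 (Ideal.span {(T : 𝓞 K)}) (intAut c π) = s := by
    rw [symbol_congr hI (y := -π) (by
      rw [sub_neg_eq_add, add_comm, ← hT']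
      exact Ideal.mem_span_singleton_self _), symbol_neg_right hI]
  have hs1 : s = 1 := by
    have hs2 : intAut c s = s ^ 2 := by
      have : expo 3 c = 2 := by
        obtain ⟨c', -, -, -, h2, -, hall'⟩ := exists_conj_three (K := K)
        rcases hall' c with e | e
        · exact absurd e hne
        · rw [e, h2]
      rw [intAut_of_pow_eq_one c hs3, this]
    rw [hcs, hs2] at hsame
    have h3 : s ^ 3 = s := by rw [pow_succ, hsame, ← pow_two, hsame]
    exact h3.symm.trans hs3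
  have h1 : symbol 3 (Ideal.span {π}) (intAut c π) = 1 := by
    rw [symbol_congr hπ.coprime (y := (T : 𝓞 K)) (by
      rw [hT', Ideal.mem_span_singleton]
      exact ⟨-1, by ring⟩), ← eisenstein_int (by norm_num) hπ hTn hco, ← hs, hs1]
  refine ⟨h1, ?_⟩
  have h2 := symbol_map hπ.coprime (show Ideal.span {π} ≠ 0 by simpa using hπ.ne_zero) (intAut c) (intAut c π)
  rwa [h1, map_one, Ideal.map_span, Set.image_singleton, RingEquiv.coe_toRingHom, hinvol] at h2

end laws

/-- Semi-primary elements multiply. -/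
theorem IsSemiPrimary.mul {α β : 𝓞 K} (hα : IsSemiPrimary 3 α) (hβ : IsSemiPrimary 3 β) :
    IsSemiPrimary 3 (α * β) := by
  obtain ⟨n, hn, hα⟩ := hα
  obtain ⟨k, hk, hβ⟩ := hβ
  refine ⟨n * k, fun h => (Int.Prime.dvd_mul' Nat.prime_three h).elim hn hk, fun z hz => ?_⟩
  rw [Int.cast_mul, show α * β - (n : 𝓞 K) * k = (α - n) * β + n * (β - k) by ring]
  exact dvd_add ((hα z hz).mul_right _) ((hβ z hz).mul_left _)

/-- A cofactor of semi-primary elements is semi-primary. -/
theorem IsSemiPrimary.of_mul {α β : 𝓞 K} (hα : IsSemiPrimary 3 α) (hαβ : IsSemiPrimary 3 (α * β)) :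
    IsSemiPrimary 3 β := by
  obtain ⟨n, hn, hα⟩ := isSemiPrimary_iff.mp hα
  obtain ⟨k, hk, hαβ⟩ := isSemiPrimary_iff.mp hαβ
  refine isSemiPrimary_iff.mpr ⟨n * k, fun h => (Int.Prime.dvd_mul' Nat.prime_three h).elim hn hk, ?_⟩
  obtain ⟨t, ht⟩ : (3 : ℤ) ∣ n * n - 1 := by
    have : n % 3 = 1 ∨ n % 3 = 2 := by omega
    refine Int.dvd_of_emod_eq_zero ?_
    rw [Int.sub_emod, Int.mul_emod]
    rcases this with e | e <;> rw [e] <;> rfl
  have ht' : (n : 𝓞 K) * n - 1 = (3 : 𝓞 K) * t := by exact_mod_cast congrArg (Int.cast : ℤ → 𝓞 K) ht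
  rw [Int.cast_mul, show β - (n : 𝓞 K) * k = -((n : 𝓞 K) * n - 1) * β + (n : 𝓞 K) * ((α * β - k) - (α - n) * β) by ring,
    ht']
  refine dvd_add (((dvd_neg.mpr ?_)).mul_right _) ((dvd_sub hαβ (hα.mul_right _)).mul_left _)
  exact ((lambda_sq_dvd_natCast (l := 3) (K := K) (by norm_num)).trans (by norm_num)).mul_right _

/-- Units that are semi-primary. -/
theorem eq_one_or_neg_one {u : (𝓞 K)ˣ} (h : IsSemiPrimary 3 (u : 𝓞 K)) : u = 1 ∨ u = -1 := by
  obtain ⟨n, -, h⟩ := isSemiPrimary_iff.mp h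
  exact IsCyclotomicExtension.Rat.Three.eq_one_or_neg_one_of_unit_of_congruent
    (IsCyclotomicExtension.zeta_spec 3 ℚ K) u ⟨n, h⟩

/-- **Every element prime to `3` has a semi-primary associate.** -/
theorem exists_semiPrimary_associate {x : 𝓞 K} (hx : ¬ z3 - 1 ∣ x) :
    ∃ u : (𝓞 K)ˣ, IsSemiPrimary 3 ((u : 𝓞 K) * x) := by
  have hζ := IsCyclotomicExtension.zeta_spec 3 ℚ K
  have hmod : ∀ y : 𝓞 K, ∃ t : ℤ, (t = 0 ∨ t = 1 ∨ t = -1) ∧ z3 - 1 ∣ y - (t : 𝓞 K) := fun y => by
    rcases IsCyclotomicExtension.Rat.Three.lambda_dvd_or_dvd_sub_one_or_dvd_add_one hζ y with h | h | h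
    · exact ⟨0, Or.inl rfl, by simpa using h⟩
    · exact ⟨1, Or.inr (Or.inl rfl), by simpa using h⟩
    · exact ⟨-1, Or.inr (Or.inr rfl), by simpa using h⟩
  obtain ⟨s, hs, y, hy⟩ := hmod x
  obtain ⟨t, ht, w, hw⟩ := hmod y
  have hs0 : s = 1 ∨ s = -1 := by
    rcases hs with rfl | hs
    · exact absurd ⟨y, by simpa using hy⟩ hx
    · exact hs
  obtain ⟨i, k, hik⟩ : ∃ (i : ℕ) (k : ℤ), t + i * s = 3 * k := by
    rcases hs0 with rfl | rfl <;> rcases ht with rfl | rfl | rfl
    exacts [⟨0, 0, rfl⟩, ⟨2, 1, rfl⟩, ⟨1, 0, rfl⟩, ⟨0, 0, rfl⟩, ⟨1, 0, rfl⟩, ⟨2, -1, rfl⟩]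
  refine ⟨(hζ.toInteger_isPrimitiveRoot.isUnit (by norm_num)).unit ^ i,
    isSemiPrimary_iff.mpr ⟨s, by omega, ?_⟩⟩
  rw [Units.val_pow_eq_pow_val, IsUnit.unit_spec]
  obtain ⟨r, hr⟩ : (z3 - 1) ^ 2 ∣ z3 ^ i - 1 - (i : 𝓞 K) * (z3 - 1) := by
    clear hik
    induction i with
    | zero => simp
    | succ i ih =>
      obtain ⟨r, hr⟩ := ih
      exact ⟨(z3 ^ i) * 0 + z3 * r + (i : 𝓞 K), by push_cast; rw [pow_succ]; linear_combination z3 * hr⟩
  have hik' : (t : 𝓞 K) + (i : 𝓞 K) * s = 3 * (k : 𝓞 K) := by exact_mod_cast congrArg (Int.cast : ℤ → 𝓞 K) hik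
  obtain ⟨g, hg⟩ : (z3 - 1) ^ 2 ∣ (3 : 𝓞 K) := by
    simpa using lambda_sq_dvd_natCast (l := 3) (K := K) (by norm_num)
  exact ⟨r * x + (i : 𝓞 K) * y + w + g * (k : 𝓞 K) * (z3 - 1),
    by linear_combination x * hr + (1 + (i : 𝓞 K) * (z3 - 1)) * hy + (z3 - 1) * hw + (z3 - 1) * hik' +
      (k : 𝓞 K) * (z3 - 1) * hg⟩

variable (K) in
/-- The law for one element against all coprime ones. -/
def LawAt (α : 𝓞 K) : Prop :=
  ∀ β : 𝓞 K, IsSemiPrimary 3 β → IsCoprime (Ideal.span {α}) (Ideal.span {β}) →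
    symbol 3 (Ideal.span {β}) α = symbol 3 (Ideal.span {α}) β

theorem lawAt_of_unit {α : 𝓞 K} (hu : IsUnit α) (hα : IsSemiPrimary 3 α) : LawAt K α := by
  intro β hβ _
  rw [Ideal.span_singleton_eq_top.mpr hu, symbol_top]
  obtain ⟨u, rfl⟩ := hu
  rcases eq_one_or_neg_one hα with rfl | rfl
  · rw [Units.val_one, symbol_one_right hβ.coprime]
  · rw [Units.val_neg, Units.val_one, symbol_neg_one (by norm_num) hβ.coprime]

theorem lawAt_prime {π : 𝓞 K} (hπ : IsSemiPrimary 3 π) (hp : Prime π) : LawAt K π := by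
  obtain ⟨c, hne, -, hinv, hc2, hc1, hall⟩ := exists_conj_three (K := K)
  have := IsCyclotomicExtension.Rat.three_pid K
  intro β hβ hco
  -- by induction on the factors of `β`
  suffices H : ∀ (x : 𝓞 K) (v : (𝓞 K)ˣ), IsSemiPrimary 3 ((v : 𝓞 K) * x) →
      IsCoprime (Ideal.span {π}) (Ideal.span {x}) →
      symbol 3 (Ideal.span {(v : 𝓞 K) * x}) π = symbol 3 (Ideal.span {π}) ((v : 𝓞 K) * x) by
    simpa using H β 1 (by rwa [Units.val_one, one_mul]) hco
  intro x
  induction x using induction_on_prime with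
  | h₁ => exact fun v h => absurd (mul_zero (v : 𝓞 K)) h.ne_zero
  | h₂ a ha =>
    intro v h _
    exact (lawAt_of_unit (v.isUnit.mul ha) h π hπ (by
      rw [Ideal.span_singleton_eq_top.mpr (v.isUnit.mul ha), ← Ideal.one_eq_top]
      exact isCoprime_one_left)).symm
  | h₃ a p ha hpp ih =>
    intro v h hco
    obtain ⟨u, hu⟩ := exists_semiPrimary_associate (x := p) fun hd =>
      lambda_not_dvd h (hd.trans ((dvd_mul_right p a).mul_left _))
    have heq : (v : 𝓞 K) * (p * a) = ((u : 𝓞 K) * p) * (((v * u⁻¹ : (𝓞 K)ˣ) : 𝓞 K) * a) := by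
      rw [Units.val_mul]
      linear_combination (-(v : 𝓞 K) * p * a) * u.mul_inv
    rw [heq] at h ⊢
    have hrest := hu.of_mul h
    rw [← Ideal.span_singleton_mul_span_singleton, IsCoprime.mul_right_iff] at hco
    rw [← Ideal.span_singleton_mul_span_singleton, symbol_mul_left (by simpa using hu.ne_zero)
      (by simpa using hrest.ne_zero), symbol_mul_right hπ.coprime, ih _ hrest hco.2]
    congr 1
    set π' := (u : 𝓞 K) * p with hπ'
    have hp' : Prime π' := (associated_unit_mul_left p u u.isUnit).symm.prime hpp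
    by_cases hN : (Ideal.absNorm (Ideal.span {π})).Coprime (Ideal.absNorm (Ideal.span {π'}))
    · exact cubic_of_coprime_absNorm hne hall hinv hc2 hc1 hπ hu hN
    obtain ⟨q, hq, hq1, hq2⟩ := Nat.Prime.not_coprime_iff_dvd.mp hN
    obtain ⟨P, hP, hπP, hqP⟩ := exists_maximal_of_dvd_absNorm hπ.ne_zero hq hq1
    obtain ⟨P', hP', hπP', hqP'⟩ := exists_maximal_of_dvd_absNorm hu.ne_zero hq hq2
    have hPeq : Ideal.span {π} = P :=
      (((Ideal.span_singleton_prime hp.ne_zero).mpr hp).isMaximal (by simpa using hp.ne_zero)).eq_of_le hP.ne_top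
        ((Ideal.span_singleton_le_iff_mem P).mpr hπP)
    have hPeq' : Ideal.span {π'} = P' :=
      (((Ideal.span_singleton_prime hp'.ne_zero).mpr hp').isMaximal (by simpa using hp'.ne_zero)).eq_of_le hP'.ne_top
        ((Ideal.span_singleton_le_iff_mem P').mpr hπP')
    have hP0 : P ≠ ⊥ := by rw [← hPeq]; simpa using hp.ne_zero
    have hP0' : P' ≠ ⊥ := by rw [← hPeq']; simpa using hp'.ne_zero
    have := Fact.mk hq
    obtain ⟨σ, hσ⟩ := exists_conjAt_eq (L := K) 3 (v := ⟨P, hP.isPrime, hP0⟩) hqP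
      (w := ⟨P', hP'.isPrime, hP0'⟩) hqP'
    have hσ' : Ideal.span {π'} = Ideal.span {intAut σ⁻¹ π} := by
      rw [hPeq', show Ideal.span {intAut σ⁻¹ π} = (Ideal.span {π}).map (intAut σ⁻¹ : 𝓞 K →+* 𝓞 K) by
        rw [Ideal.map_span, Set.image_singleton]; rfl, hPeq]
      exact congrArg HeightOneSpectrum.asIdeal hσ
    have hπ'ne : Ideal.span {π'} ≠ Ideal.span {π} := fun e => hp.not_isUnit (by
      have h1 : IsCoprime (Ideal.span {π}) (Ideal.span {π}) := by
        have h2 := hco.1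
        rwa [show Ideal.span {p} = Ideal.span {π'} from Ideal.span_singleton_eq_span_singleton.mpr
          (associated_unit_mul_left p u u.isUnit).symm, e] at h2
      rw [isCoprime_self, Ideal.isUnit_iff, Ideal.span_singleton_eq_top] at h1
      exact h1)
    rcases hall σ⁻¹ with e | e
    · exact absurd (by rw [hσ', e, show intAut (1 : K ≃ₐ[ℚ] K) π = π from RingOfIntegers.ext rfl]) hπ'ne
    rw [e] at hσ'
    have hna : ¬ Associated π (intAut c π) := fun ha =>
      hπ'ne (hσ'.trans (Ideal.span_singleton_eq_span_singleton.mpr ha.symm))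
    obtain ⟨h1, h2⟩ := cubic_conj hne hall hinv hπ hp hna
    obtain ⟨w, hw⟩ := Ideal.span_singleton_eq_span_singleton.mp hσ'.symm
    have hwsp : IsSemiPrimary 3 (w : 𝓞 K) := by
      refine IsSemiPrimary.of_mul ?_ (hw ▸ hu)
      obtain ⟨n, hn, hn'⟩ := hπ
      refine ⟨n, hn, fun z hz => ?_⟩
      obtain ⟨t, ht⟩ := hn' ((intAut c).symm z) (hz.map_of_injective (intAut c).symm.injective)
      refine ⟨intAut c t, ?_⟩
      have := congrArg (intAut c) ht
      rwa [map_sub, map_intCast, map_mul, map_pow, map_sub, map_one, RingEquiv.apply_symm_apply] at this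
    rw [hσ', h2, ← hw]
    rcases eq_one_or_neg_one hwsp with rfl | rfl
    · rw [Units.val_one, mul_one, h1]
    · rw [Units.val_neg, Units.val_one, mul_neg, mul_one, symbol_neg_right hπ.coprime, h1]

/-- **The law of cubic reciprocity.** -/
theorem cubic_reciprocity {α β : 𝓞 K} (hα : IsSemiPrimary 3 α) (hβ : IsSemiPrimary 3 β)
    (hco : IsCoprime (Ideal.span {α}) (Ideal.span {β})) :
    symbol 3 (Ideal.span {β}) α = symbol 3 (Ideal.span {α}) β := by
  have := IsCyclotomicExtension.Rat.three_pid K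
  suffices H : ∀ (x : 𝓞 K) (v : (𝓞 K)ˣ), IsSemiPrimary 3 ((v : 𝓞 K) * x) → LawAt K ((v : 𝓞 K) * x) by
    simpa using H α 1 (by rwa [Units.val_one, one_mul]) β hβ (by rwa [Units.val_one, one_mul])
  intro x
  induction x using induction_on_prime with
  | h₁ => exact fun v h => absurd (mul_zero (v : 𝓞 K)) h.ne_zero
  | h₂ a ha => exact fun v h => lawAt_of_unit (v.isUnit.mul ha) h
  | h₃ a p ha hpp ih =>
    intro v h
    obtain ⟨u, hu⟩ := exists_semiPrimary_associate (x := p) fun hd =>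
      lambda_not_dvd h (hd.trans ((dvd_mul_right p a).mul_left _))
    have heq : (v : 𝓞 K) * (p * a) = ((u : 𝓞 K) * p) * (((v * u⁻¹ : (𝓞 K)ˣ) : 𝓞 K) * a) := by
      rw [Units.val_mul]
      linear_combination (-(v : 𝓞 K) * p * a) * u.mul_inv
    rw [heq] at h ⊢
    have hrest := hu.of_mul h
    intro γ hγ hco
    rw [← Ideal.span_singleton_mul_span_singleton, IsCoprime.mul_left_iff] at hco
    rw [← Ideal.span_singleton_mul_span_singleton, symbol_mul_left (by simpa using hu.ne_zero)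
      (by simpa using hrest.ne_zero), symbol_mul_right hγ.coprime,
      lawAt_prime hu ((associated_unit_mul_left p u u.isUnit).symm.prime hpp) γ hγ hco.1,
      ih _ hrest γ hγ hco.2]

end FA.PowerReciprocity
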