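import Fermat.Agent.PowerReciprocity.JacobiPrime
import Fermat.Agent.PowerReciprocity.Cubic
import Mathlib.NumberTheory.LegendreSymbol.Basic

/-!
# Jacobi sums as Größencharaktere

Extended multiplicatively to the ideals prime to `l`, the Jacobi sum sends a principal ideal `(α)` with `α ≡ n`
modulo `(ζ - 1) ^ 2` to the Legendre symbol of `n` times `∏ (σ⁻¹ α) ^ e(σ)`: the quotient is a unit of absolute
value `1` at every embedding, so `± 1` by its congruence. Thus it is a Hecke character whose conductor divides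
`(ζ - 1) ^ 2` and whose infinity type is the CM type (Weil, 1952).
-/

set_option autoImplicit false
set_option linter.unusedSectionVars false

noncomputable section

open NumberField IsDedekindDomain UniqueFactorizationMonoid
open scoped Classical

namespace FA.PowerReciprocity

open FA.IwasawaStructure FA.GaussValuation

variable {K : Type*} [Field K] [NumberField K]

/-- `J_{a,b}(I)`. -/
def jacobiIdeal (l a b : ℕ) (I : Ideal (𝓞 K)) : 𝓞 K :=
  ((normalizedFactors I).map (jacobiPrime l a b)).prod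

/-- `α ^ Θ = ∏ (σ⁻¹ α) ^ e(σ)`. -/
def cmPow (l : ℕ) [Fact l.Prime] [IsCyclotomicExtension {l} ℚ K] (a b : ℕ) (x : 𝓞 K) : 𝓞 K :=
  haveI : NeZero l := ⟨(Fact.out : l.Prime).ne_zero⟩
  ∏ σ : K ≃ₐ[ℚ] K, intAut σ⁻¹ x ^ cmExpo l a b (expo l σ)

theorem jacobiIdeal_mul {l a b : ℕ} {I J : Ideal (𝓞 K)} (hI : I ≠ 0) (hJ : J ≠ 0) :
    jacobiIdeal l a b (I * J) = jacobiIdeal l a b I * jacobiIdeal l a b J := by
  rw [jacobiIdeal, normalizedFactors_mul hI hJ, Multiset.map_add, Multiset.prod_add]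
  rfl

theorem jacobiIdeal_top {l a b : ℕ} : jacobiIdeal l a b (⊤ : Ideal (𝓞 K)) = 1 := by
  rw [jacobiIdeal, ← Ideal.one_eq_top, normalizedFactors_one, Multiset.map_zero, Multiset.prod_zero]

theorem jacobiIdeal_prime {l a b : ℕ} {I : Ideal (𝓞 K)} (hI : Prime I) :
    jacobiIdeal l a b I = jacobiPrime l a b I := by
  rw [jacobiIdeal, normalizedFactors_irreducible hI.irreducible, normalize_eq, Multiset.map_singleton,
    Multiset.prod_singleton]

variable {l : ℕ} [hl : Fact l.Prime] [IsCyclotomicExtension {l} ℚ K] {a b : ℕ}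

local notation "zl" => IsPrimitiveRoot.toInteger (IsCyclotomicExtension.zeta_spec l ℚ K)

theorem cmIdeal_mul (I J : Ideal (𝓞 K)) : cmIdeal l a b (I * J) = cmIdeal l a b I * cmIdeal l a b J := by
  simp only [cmIdeal, Ideal.map_mul, mul_pow, Finset.prod_mul_distrib]

theorem cmIdeal_span (x : 𝓞 K) : cmIdeal l a b (Ideal.span {x}) = Ideal.span {cmPow l a b x} := by
  simp only [cmIdeal, cmPow, Ideal.map_span, Set.image_singleton, Ideal.span_singleton_pow,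
    Ideal.prod_span_singleton]
  rfl

theorem cmIdeal_top : cmIdeal l a b (⊤ : Ideal (𝓞 K)) = ⊤ := by
  have : NeZero l := ⟨hl.out.ne_zero⟩
  rw [cmIdeal, ← Ideal.one_eq_top]
  refine Finset.prod_eq_one fun σ _ => ?_
  rw [Ideal.one_eq_top, Ideal.map_top, Ideal.top_pow]

/-- **The Jacobi sum of an ideal**: its factorisation, absolute values and congruence. -/
theorem jacobiIdeal_spec (hl2 : l ≠ 2) (ha : ¬ l ∣ a) (hb : ¬ l ∣ b) (hab : ¬ l ∣ a + b) {I : Ideal (𝓞 K)}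
    (hI0 : I ≠ 0) (hI : l.Coprime (Ideal.absNorm I)) :
    Ideal.span {jacobiIdeal l a b I} = cmIdeal l a b I ∧
      (∀ φ : K →+* ℂ, ‖φ (jacobiIdeal l a b I : K)‖ ^ 2 = ((Ideal.absNorm I : ℕ) : ℝ)) ∧
      ∀ z : 𝓞 K, IsPrimitiveRoot z l → (z - 1) ^ 2 ∣ jacobiIdeal l a b I - 1 := by
  induction I using induction_on_prime with
  | h₁ => exact absurd rfl hI0
  | h₂ J hJ =>
    rw [isUnit_iff_eq_one.mp hJ, Ideal.one_eq_top, jacobiIdeal_top, cmIdeal_top, Ideal.span_singleton_one]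
    exact ⟨rfl, fun φ => by simp, fun z _ => by rw [sub_self]; exact dvd_zero _⟩
  | h₃ J P hJ hP ih =>
    have hPI := coprime_of_dvd (dvd_mul_right P J) hI
    have := (Ideal.isPrime_of_prime hP).isMaximal hP.ne_zero
    obtain ⟨h1, h1a, h1c⟩ := jacobiPrime_spec hl2 (natCast_notMem this.ne_top hPI) ha hb hab
    obtain ⟨h2, h2a, h2c⟩ := ih hJ (coprime_of_dvd (dvd_mul_left J P) hI)
    rw [jacobiIdeal_mul hP.ne_zero hJ, jacobiIdeal_prime hP]
    refine ⟨?_, fun φ => ?_, fun z hz => ?_⟩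
    · rw [← Ideal.span_singleton_mul_span_singleton, h1, h2, cmIdeal_mul]
    · rw [show ((jacobiPrime l a b P * jacobiIdeal l a b J : 𝓞 K) : K) =
        (jacobiPrime l a b P : K) * (jacobiIdeal l a b J : K) from map_mul _ _ _, map_mul, norm_mul, mul_pow,
        h1a φ, h2a φ, map_mul, Nat.cast_mul]
    · rw [show jacobiPrime l a b P * jacobiIdeal l a b J - 1 =
        (jacobiPrime l a b P - 1) * jacobiIdeal l a b J + (jacobiIdeal l a b J - 1) by ring]
      exact dvd_add ((h1c z hz).mul_right _) (h2c z hz)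

/-- The exponents of a pair of conjugate elements add up to `1`. -/
theorem cmExpo_conj [NeZero l] (ha : ¬ l ∣ a) (hb : ¬ l ∣ b) (hab : ¬ l ∣ a + b) {c : K ≃ₐ[ℚ] K}
    (hexp : ∀ σ, expo l (σ * c) + expo l σ = l) (σ : K ≃ₐ[ℚ] K) :
    cmExpo l a b (expo l σ) + cmExpo l a b (expo l (σ * c)) = 1 :=
  cmExpo_add_compl hl.out ha hb hab (not_dvd_expo σ) (by rw [add_comm, hexp])

/-- The square of the absolute value of `α ^ Θ`. -/
theorem norm_cmPow (ha : ¬ l ∣ a) (hb : ¬ l ∣ b) (hab : ¬ l ∣ a + b) (x : 𝓞 K) (φ : K →+* ℂ) :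
    ‖φ (cmPow l a b x : K)‖ ^ 2 = ((Ideal.absNorm (Ideal.span {x}) : ℕ) : ℝ) := by
  have : NeZero l := ⟨hl.out.ne_zero⟩
  have : IsGalois ℚ K := IsCyclotomicExtension.isGalois {l} ℚ K
  obtain ⟨c, hc, hexp, hconj⟩ := exists_conj (l := l) (K := K)
  set w : (K ≃ₐ[ℚ] K) → ℝ := fun σ => ‖φ (σ⁻¹ (x : K))‖ with hw
  set e : (K ≃ₐ[ℚ] K) → ℕ := fun σ => cmExpo l a b (expo l σ)
  have hpow : ‖φ (cmPow l a b x : K)‖ = ∏ σ, w σ ^ e σ := by
    show ‖φ (algebraMap (𝓞 K) K (cmPow l a b x))‖ = _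
    rw [cmPow, map_prod (algebraMap (𝓞 K) K), map_prod, norm_prod]
    exact Finset.prod_congr rfl fun σ _ => by rw [map_pow, map_pow, norm_pow]; rfl
  have hwc : ∀ σ, w (σ * c) = w σ := fun σ => by
    show ‖φ ((σ * c)⁻¹ (x : K))‖ = _
    rw [mul_inv_rev, inv_eq_of_mul_eq_one_right hc, AlgEquiv.mul_apply, hconj]
  have hprod : ∏ σ, w σ = ((Ideal.absNorm (Ideal.span {x}) : ℕ) : ℝ) := by
    rw [Fintype.prod_equiv (Equiv.inv _) w (fun σ => ‖φ (σ (x : K))‖) fun σ => rfl, ← norm_prod, ← map_prod,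
      ← Algebra.norm_eq_prod_automorphisms, eq_ratCast, map_ratCast, ← Algebra.coe_norm_int,
      Ideal.absNorm_span_singleton]
    simp [Nat.cast_natAbs, Int.cast_abs]
  have h2 : (∏ σ, w σ ^ e σ) = ∏ σ, w σ ^ e (σ * c) :=
    (Fintype.prod_equiv (Equiv.mulRight c) _ _ fun σ => by rw [Equiv.coe_mulRight, hwc]).symm
  rw [hpow, pow_two]
  nth_rewrite 2 [h2]
  rw [← Finset.prod_mul_distrib, Finset.prod_congr rfl fun σ _ => show w σ ^ e σ * w σ ^ e (σ * c) = w σ by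
    rw [← pow_add, cmExpo_conj ha hb hab hexp, pow_one], hprod]

/-- The exponents add up to `(l - 1) / 2`. -/
theorem sum_cmExpo [NeZero l] (hl2 : l ≠ 2) (ha : ¬ l ∣ a) (hb : ¬ l ∣ b) (hab : ¬ l ∣ a + b) :
    ∑ σ : K ≃ₐ[ℚ] K, cmExpo l a b (expo l σ) = l / 2 := by
  obtain ⟨c, hc, hexp, -⟩ := exists_conj (l := l) (K := K)
  set S := ∑ σ : K ≃ₐ[ℚ] K, cmExpo l a b (expo l σ) with hS
  have h2 : ∑ σ : K ≃ₐ[ℚ] K, cmExpo l a b (expo l (σ * c)) = S := Fintype.sum_equiv (Equiv.mulRight c) _ _ fun σ => rfl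
  have h3 : S + S = l - 1 := by
    conv_lhs => arg 2; rw [← h2]
    rw [hS, ← Finset.sum_add_distrib, Finset.sum_congr rfl fun σ _ => cmExpo_conj ha hb hab hexp σ,
      Finset.sum_const, Finset.card_univ, ← Nat.card_eq_fintype_card,
      Nat.card_congr (IsCyclotomicExtension.Rat.galEquivZMod l K).toEquiv, Nat.card_eq_fintype_card,
      ZMod.card_units, smul_eq_mul, mul_one]
  obtain ⟨k, hk⟩ := hl.out.odd_of_ne_two hl2
  omega

/-- The congruence of `α ^ Θ`. -/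
theorem cmPow_congr (hl2 : l ≠ 2) (ha : ¬ l ∣ a) (hb : ¬ l ∣ b) (hab : ¬ l ∣ a + b) {α : 𝓞 K} {n : ℤ}
    (h : ∀ z : 𝓞 K, IsPrimitiveRoot z l → (z - 1) ^ 2 ∣ α - (n : 𝓞 K)) :
    (zl - 1) ^ 2 ∣ cmPow l a b α - (legendreSym l n : 𝓞 K) := by
  have : NeZero l := ⟨hl.out.ne_zero⟩
  set J := Ideal.span {(zl - 1) ^ 2}
  have hres : ∀ σ : K ≃ₐ[ℚ] K, Ideal.Quotient.mk J (intAut σ⁻¹ α) = Ideal.Quotient.mk J (n : 𝓞 K) := fun σ => by
    rw [Ideal.Quotient.eq, Ideal.mem_span_singleton]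
    obtain ⟨t, ht⟩ := h ((intAut σ⁻¹).symm zl)
      ((zetaInt_isPrimitiveRoot (l := l) (K := K)).map_of_injective (intAut σ⁻¹).symm.injective)
    refine ⟨intAut σ⁻¹ t, ?_⟩
    have := congrArg (intAut σ⁻¹) ht
    rwa [map_mul, map_pow, map_sub, map_sub, map_one, RingEquiv.apply_symm_apply, map_intCast] at this
  rw [← Ideal.mem_span_singleton, ← Ideal.Quotient.eq]
  calc Ideal.Quotient.mk J (cmPow l a b α) = Ideal.Quotient.mk J (n : 𝓞 K) ^ (l / 2) := by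
        rw [cmPow, map_prod, ← sum_cmExpo (K := K) hl2 ha hb hab, ← Finset.prod_pow_eq_pow_sum]
        exact Finset.prod_congr rfl fun σ _ => by rw [map_pow, hres]
    _ = _ := by
        rw [← map_pow, Ideal.Quotient.eq, Ideal.mem_span_singleton, ← Int.cast_pow, ← Int.cast_sub]
        obtain ⟨t, ht⟩ : (l : ℤ) ∣ n ^ (l / 2) - legendreSym l n := by
          rw [← ZMod.intCast_zmod_eq_zero_iff_dvd, Int.cast_sub, Int.cast_pow, legendreSym.eq_pow, sub_self]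
        rw [ht, Int.cast_mul, Int.cast_natCast]
        exact (lambda_sq_dvd_natCast hl2).mul_right _

theorem sq_lambda_not_dvd_two (hl2 : l ≠ 2) : ¬ (zl - 1) ^ 2 ∣ (2 : 𝓞 K) := fun h => by
  have h1 : (l : ℤ) ∣ 2 := (lambda_dvd_iff (K := K)).mp (by
    rw [Int.cast_ofNat]
    exact (dvd_pow_self _ two_ne_zero).trans h)
  exact hl2 ((Nat.prime_dvd_prime_iff_eq hl.out Nat.prime_two).mp (Int.natCast_dvd_natCast.mp h1))

/-- **Weil's theorem**: on semi-primary elements, `J((α)) = (n / l) α ^ Θ`. -/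
theorem jacobiIdeal_span_eq (hl2 : l ≠ 2) (ha : ¬ l ∣ a) (hb : ¬ l ∣ b) (hab : ¬ l ∣ a + b) {α : 𝓞 K} {n : ℤ}
    (hn : ¬ (l : ℤ) ∣ n) (h : ∀ z : 𝓞 K, IsPrimitiveRoot z l → (z - 1) ^ 2 ∣ α - (n : 𝓞 K)) :
    jacobiIdeal l a b (Ideal.span {α}) = (legendreSym l n : 𝓞 K) * cmPow l a b α := by
  have hs : IsSemiPrimary l α := ⟨n, hn, h⟩
  obtain ⟨h1, h2, h3⟩ := jacobiIdeal_spec hl2 ha hb hab (show Ideal.span {α} ≠ 0 by simpa using hs.ne_zero) hs.coprime
  rw [cmIdeal_span, Ideal.span_singleton_eq_span_singleton] at h1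
  obtain ⟨u, hu⟩ := h1.symm
  have hN : ((Ideal.absNorm (Ideal.span {α}) : ℕ) : ℝ) ≠ 0 := Nat.cast_ne_zero.mpr fun e =>
    hs.ne_zero (by simpa [Ideal.absNorm_eq_zero_iff] using e)
  have hu1 : ∀ φ : K →+* ℂ, ‖φ ((u : 𝓞 K) : K)‖ = 1 := fun φ => by
    have h4 := h2 φ
    rw [← hu, show ((cmPow l a b α * u : 𝓞 K) : K) = (cmPow l a b α : K) * ((u : 𝓞 K) : K) from map_mul _ _ _,
      map_mul, norm_mul, mul_pow, norm_cmPow ha hb hab] at h4
    exact (sq_eq_one_iff.mp (mul_left_cancel₀ hN (h4.trans (mul_one _).symm))).resolve_right fun e => by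
      linarith [norm_nonneg (φ ((u : 𝓞 K) : K))]
  set s : 𝓞 K := (legendreSym l n : 𝓞 K) with hs'
  have hsu : (zl - 1) ^ 2 ∣ s * u - 1 := by
    rw [show s * u - 1 = (cmPow l a b α * u - 1) - (cmPow l a b α - s) * u by ring, hu]
    exact dvd_sub (h3 _ (zetaInt_isPrimitiveRoot (l := l) (K := K))) ((cmPow_congr hl2 ha hb hab h).mul_right _)
  have hs1 : s = 1 ∨ s = -1 := by
    rcases legendreSym.eq_one_or_neg_one l (a := n) (fun e => hn ((ZMod.intCast_zmod_eq_zero_iff_dvd n l).mp e))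
      with e | e <;> rw [hs', e] <;> simp
  have hu' : (u : 𝓞 K) = 1 ∨ (u : 𝓞 K) = -1 := unit_eq_one_or_neg_one hl2 hu1 (by
    rcases hs1 with e | e <;> rw [e] at hsu
    · rw [one_mul] at hsu
      rw [show (u : 𝓞 K) ^ 2 - 1 = ((u : 𝓞 K) - 1) * (u + 1) by ring]
      exact hsu.mul_right _
    · rw [show (u : 𝓞 K) ^ 2 - 1 = (-1 * (u : 𝓞 K) - 1) * (-u + 1) by ring]
      exact hsu.mul_right _)
  have key : (u : 𝓞 K) = s := by
    rcases hu' with hu' | hu' <;> rcases hs1 with e | e <;> rw [hu', e] <;> rw [hu', e] at hsu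
    · refine absurd ?_ (sq_lambda_not_dvd_two (K := K) hl2)
      rwa [show (-1 : 𝓞 K) * 1 - 1 = -2 by ring, dvd_neg] at hsu
    · refine absurd ?_ (sq_lambda_not_dvd_two (K := K) hl2)
      rwa [show (1 : 𝓞 K) * -1 - 1 = -2 by ring, dvd_neg] at hsu
  rw [← hu, key, mul_comm]

/-- A divisibility by `(ζ - 1) ^ 2` does not depend on the primitive root. -/
theorem forall_sq_dvd {x : 𝓞 K} (h : (zl - 1) ^ 2 ∣ x) (z : 𝓞 K) (hz : IsPrimitiveRoot z l) : (z - 1) ^ 2 ∣ x := by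
  have : NeZero l := ⟨hl.out.ne_zero⟩
  have hz' := zetaInt_isPrimitiveRoot (l := l) (K := K)
  obtain ⟨i, -, hi, rfl⟩ := hz'.isPrimitiveRoot_iff.mp hz
  exact (hz'.associated_sub_one_pow_sub_one_of_coprime hi).symm.pow_pow.dvd.trans h

/-- **A Größencharakter of conductor dividing `(ζ - 1) ^ 2`**: `J((α)) = α ^ Θ` for `α ≡ 1`. -/
theorem jacobiIdeal_span_of_congr_one (hl2 : l ≠ 2) (ha : ¬ l ∣ a) (hb : ¬ l ∣ b) (hab : ¬ l ∣ a + b) {α : 𝓞 K}
    (h : (zl - 1) ^ 2 ∣ α - 1) : jacobiIdeal l a b (Ideal.span {α}) = cmPow l a b α := by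
  have h1 : ∀ z : 𝓞 K, IsPrimitiveRoot z l → (z - 1) ^ 2 ∣ α - ((1 : ℤ) : 𝓞 K) :=
    fun z hz => forall_sq_dvd (by rwa [Int.cast_one]) z hz
  have hn : ¬ (l : ℤ) ∣ 1 := fun e =>
    hl.out.ne_one (Nat.dvd_one.mp (Int.natCast_dvd_natCast.mp (by exact_mod_cast e)))
  rw [jacobiIdeal_span_eq hl2 ha hb hab hn h1, legendreSym.at_one, Int.cast_one, one_mul]

section cubic

variable {F : Type*} [Field F] [NumberField F] [IsCyclotomicExtension {3} ℚ F]

/-- For `l = 3` the CM type is the identity. -/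
theorem cmPow_three (x : 𝓞 F) : cmPow 3 1 1 x = x := by
  obtain ⟨c, -, -, -, hc2, h1, hall⟩ := exists_conj_three (K := F)
  rw [cmPow, Finset.prod_eq_single 1 (fun σ _ hσ => ?_) fun h => absurd (Finset.mem_univ _) h, h1,
    show cmExpo 3 1 1 1 = 1 from rfl, pow_one, inv_one]
  · exact RingOfIntegers.ext rfl
  · rw [(hall σ).resolve_left hσ, hc2, show cmExpo 3 1 1 2 = 0 from rfl, pow_zero]

/-- **Gauss**: `J(χ, χ) = π` for the cubic character of a primary prime `π ≡ 2 (mod 3)`. -/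
theorem jacobiSum_cubic {π : 𝓞 F} (hπ : Prime π) (h : (3 : 𝓞 F) ∣ π - 2) [Fintype (𝓞 F ⧸ Ideal.span {π})]
    {χ : MulChar (𝓞 F ⧸ Ideal.span {π}) (𝓞 F)}
    (hχ : ∀ x, χ (Ideal.Quotient.mk (Ideal.span {π}) x) = symbolPrime 3 (Ideal.span {π}) x) :
    jacobiSum χ χ = π := by
  have hz : ((IsCyclotomicExtension.zeta_spec 3 ℚ F).toInteger - 1) ^ 2 ∣ π - ((2 : ℤ) : 𝓞 F) := by
    rw [Int.cast_ofNat]
    exact ((lambda_sq_dvd_natCast (l := 3) (K := F) (by norm_num)).trans (by norm_num)).trans h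
  have hspan : Prime (Ideal.span {π}) :=
    Ideal.prime_of_isPrime (by simpa using hπ.ne_zero) ((Ideal.span_singleton_prime hπ.ne_zero).mpr hπ)
  have : (Ideal.span {π}).IsMaximal := ((Ideal.span_singleton_prime hπ.ne_zero).mpr hπ).isMaximal
    (by simpa using hπ.ne_zero)
  have key := jacobiIdeal_span_eq (l := 3) (a := 1) (b := 1) (n := 2) (α := π) (by norm_num) (by norm_num)
    (by norm_num) (by norm_num) (by norm_num) (forall_sq_dvd hz)
  rw [jacobiIdeal_prime hspan, jacobiPrime_eq hχ one_ne_zero one_ne_zero, pow_one, cmPow_three,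
    show legendreSym 3 2 = -1 by decide, Int.cast_neg, Int.cast_one, neg_one_mul, neg_inj] at key
  exact key

end cubic

end FA.PowerReciprocity
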