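import Fermat.Agent.PowerReciprocity.IdealPower
import Mathlib.Analysis.RCLike.Basic
import Mathlib.NumberTheory.Cyclotomic.PrimitiveRoots
import Mathlib.NumberTheory.NumberField.InfinitePlace.Embeddings

/-!
# The reciprocity law of Eisenstein

For semi-primary `α`, that is `α` prime to `l` and congruent to an integer modulo `(ζ - 1) ^ 2`, the element of `(α)`
is `± α ^ γ`: it is `u α ^ γ` for a unit `u` of absolute value `1`, a root of unity `≡ ± 1` modulo `(ζ - 1) ^ 2`.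
So `(α / N B) = (N B / α)`, and `(α / a) = (a / α)` for rational `a`, since residue degrees are prime to `l`.
-/

set_option autoImplicit false
set_option linter.unusedSectionVars false

noncomputable section

open NumberField IsDedekindDomain UniqueFactorizationMonoid
open scoped Classical

namespace FA.PowerReciprocity

open FA.IwasawaStructure FA.GaussValuation

/-- **Semi-primary**: prime to `l` and congruent to an integer modulo `(ζ - 1) ^ 2`. -/
def IsSemiPrimary {K : Type*} [Field K] [NumberField K] (l : ℕ) (α : 𝓞 K) : Prop :=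
  ∃ n : ℤ, ¬ (l : ℤ) ∣ n ∧ ∀ z : 𝓞 K, IsPrimitiveRoot z l → (z - 1) ^ 2 ∣ α - (n : 𝓞 K)

variable {l : ℕ} [hl : Fact l.Prime] {K : Type*} [Field K] [NumberField K] [IsCyclotomicExtension {l} ℚ K]

local notation "zl" => IsPrimitiveRoot.toInteger (IsCyclotomicExtension.zeta_spec l ℚ K)

theorem prime_lambda : Prime (zl - 1) := (IsCyclotomicExtension.zeta_spec l ℚ K).zeta_sub_one_prime'

theorem lambda_dvd_iff {n : ℤ} : zl - 1 ∣ (n : 𝓞 K) ↔ (l : ℤ) ∣ n :=
  IsCyclotomicExtension.Rat.zeta_sub_one_dvd_intCast_iff' l (IsCyclotomicExtension.zeta_spec l ℚ K)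

theorem lambda_sq_dvd_natCast (hl2 : l ≠ 2) : (zl - 1) ^ 2 ∣ (l : 𝓞 K) := by
  refine dvd_trans (pow_dvd_pow _ ?_)
    (IsCyclotomicExtension.Rat.associated_zeta_sub_one_pow_prime l (IsCyclotomicExtension.zeta_spec l ℚ K)).dvd
  have := hl.out.two_le
  omega

theorem isSemiPrimary_iff {α : 𝓞 K} :
    IsSemiPrimary l α ↔ ∃ n : ℤ, ¬ (l : ℤ) ∣ n ∧ (zl - 1) ^ 2 ∣ α - (n : 𝓞 K) := by
  have : NeZero l := ⟨hl.out.ne_zero⟩
  have hz := zetaInt_isPrimitiveRoot (l := l) (K := K)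
  constructor
  · rintro ⟨n, hn, h⟩
    exact ⟨n, hn, h _ hz⟩
  · rintro ⟨n, hn, h⟩
    refine ⟨n, hn, fun z hz' => dvd_trans (Associated.pow_pow ?_).dvd h⟩
    obtain ⟨i, -, hi, rfl⟩ := hz.isPrimitiveRoot_iff.mp hz'
    exact (hz.associated_sub_one_pow_sub_one_of_coprime hi).symm

theorem lambda_not_dvd {α : 𝓞 K} (h : IsSemiPrimary l α) : ¬ zl - 1 ∣ α := by
  obtain ⟨n, hn, h⟩ := isSemiPrimary_iff.mp h
  refine fun hd => hn ((lambda_dvd_iff (K := K)).mp ?_)
  have := dvd_sub hd (dvd_trans (dvd_pow_self _ two_ne_zero) h)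
  rwa [sub_sub_cancel] at this

/-- An element not divisible by `ζ - 1` has norm prime to `l`. -/
theorem coprime_absNorm_of_not_dvd {x : 𝓞 K} (h : ¬ zl - 1 ∣ x) : l.Coprime (Ideal.absNorm (Ideal.span {x})) := by
  have hx : x ≠ 0 := fun e => h (e ▸ dvd_zero _)
  refine hl.out.coprime_iff_not_dvd.mpr fun hd => ?_
  rw [← Ideal.prod_normalizedFactors_eq_self (show Ideal.span {x} ≠ 0 by simpa using hx), map_multiset_prod] at hd
  obtain ⟨P, hP, hlP⟩ := hl.out.prime.exists_mem_multiset_map_dvd hd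
  have := (Ideal.isPrime_of_prime (prime_of_normalized_factor P hP)).isMaximal
    (prime_of_normalized_factor P hP).ne_zero
  obtain ⟨q, hq, hqP, -⟩ := exists_prime_mem P
  obtain ⟨e, he⟩ : ∃ e, Ideal.absNorm P = q ^ e := by
    let := Fintype.ofFinite (𝓞 K ⧸ P)
    let := Ideal.Quotient.field P
    have : CharP (𝓞 K ⧸ P) q := by
      refine (CharP.charP_iff_prime_eq_zero hq).mpr ?_
      rw [← map_natCast (Ideal.Quotient.mk P), Ideal.Quotient.eq_zero_iff_mem]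
      exact hqP
    obtain ⟨e, -, he⟩ := FiniteField.card (𝓞 K ⧸ P) q
    exact ⟨e, by rw [← card_quotient, he]⟩
  have hlq : l = q := (Nat.prime_dvd_prime_iff_eq hl.out hq).mp (hl.out.dvd_of_dvd_pow (by rwa [he] at hlP))
  subst hlq
  have hmax : (Ideal.span {zl - 1}).IsMaximal :=
    ((Ideal.span_singleton_prime prime_lambda.ne_zero).mpr prime_lambda).isMaximal
      (by simpa using (prime_lambda (l := l) (K := K)).ne_zero)
  have hle : Ideal.span {zl - 1} ≤ P := by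
    rw [Ideal.span_le, Set.singleton_subset_iff]
    exact sub_one_mem inferInstance zetaInt_isPrimitiveRoot hqP
  exact h (Ideal.mem_span_singleton.mp (hmax.eq_of_le this.ne_top hle ▸
    Ideal.le_of_dvd (dvd_of_mem_normalizedFactors hP) (Ideal.mem_span_singleton_self x)))

theorem IsSemiPrimary.coprime {α : 𝓞 K} (h : IsSemiPrimary l α) : l.Coprime (Ideal.absNorm (Ideal.span {α})) :=
  coprime_absNorm_of_not_dvd (lambda_not_dvd h)

theorem IsSemiPrimary.ne_zero {α : 𝓞 K} (h : IsSemiPrimary l α) : α ≠ 0 := fun e =>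
  lambda_not_dvd h (e ▸ dvd_zero _)

/-- Complex conjugation. -/
theorem exists_conj : ∃ c : K ≃ₐ[ℚ] K, c * c = 1 ∧ (∀ σ, expo l (σ * c) + expo l σ = l) ∧
    ∀ (φ : K →+* ℂ) (x : K), ‖φ (c x)‖ = ‖φ x‖ := by
  have : NeZero l := ⟨hl.out.ne_zero⟩
  set G := IsCyclotomicExtension.Rat.galEquivZMod l K
  refine ⟨G.symm (-1), by rw [← map_mul, neg_one_mul, neg_neg, map_one], fun σ => ?_, fun φ x => ?_⟩
  · have h0 : ((G σ : (ZMod l)ˣ) : ZMod l) ≠ 0 := Units.ne_zero _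
    have hlt : expo l σ < l := ZMod.val_lt _
    show ((G (σ * G.symm (-1)) : (ZMod l)ˣ) : ZMod l).val + expo l σ = l
    rw [map_mul, G.apply_symm_apply, mul_neg, mul_one, Units.val_neg, ZMod.neg_val, if_neg h0]
    exact Nat.sub_add_cancel hlt.le
  · have hz := IsCyclotomicExtension.zeta_spec l ℚ K
    set z := IsCyclotomicExtension.zeta l ℚ K
    let g₁ : K →ₐ[ℚ] ℂ := ((starRingEnd ℂ).comp φ).toRatAlgHom
    let g₂ : K →ₐ[ℚ] ℂ := (φ.comp (G.symm (-1)).toRingEquiv.toRingHom).toRatAlgHom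
    have h : g₁ = g₂ := (hz.powerBasis ℚ).algHom_ext (by
      rw [IsPrimitiveRoot.powerBasis_gen]
      show (starRingEnd ℂ) (φ z) = φ (G.symm (-1) z)
      rw [IsCyclotomicExtension.Rat.galEquivZMod_apply_of_pow_eq l K _ hz.pow_eq_one, G.apply_symm_apply, map_pow]
      have hφl : φ z ^ l = 1 := by rw [← map_pow, hz.pow_eq_one, map_one]
      rw [← Complex.inv_eq_conj (Complex.norm_eq_one_of_pow_eq_one hφl hl.out.ne_zero)]
      refine inv_eq_of_mul_eq_one_right ?_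
      rw [← pow_succ', Units.val_neg, Units.val_one]
      have h1 : (-1 : ZMod l).val + 1 = l := by
        rw [ZMod.neg_val, if_neg one_ne_zero, ZMod.val_one]
        exact Nat.sub_add_cancel hl.out.one_le
      rw [h1, hφl])
    show ‖g₂ x‖ = _
    rw [← h]
    exact Complex.norm_conj _

/-- The square of the absolute value of `α ^ γ`. -/
theorem norm_stickPow (x : 𝓞 K) (φ : K →+* ℂ) :
    ‖φ (stickPow l x : K)‖ ^ 2 = ((Ideal.absNorm (Ideal.span {x}) : ℕ) : ℝ) ^ l := by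
  have : NeZero l := ⟨hl.out.ne_zero⟩
  have : IsGalois ℚ K := IsCyclotomicExtension.isGalois {l} ℚ K
  obtain ⟨c, hc, hexp, hconj⟩ := exists_conj (l := l) (K := K)
  set w : (K ≃ₐ[ℚ] K) → ℝ := fun σ => ‖φ (σ⁻¹ (x : K))‖ with hw
  have hpow : ‖φ (stickPow l x : K)‖ = ∏ σ, w σ ^ expo l σ := by
    show ‖φ (algebraMap (𝓞 K) K (stickPow l x))‖ = _
    rw [stickPow, map_prod (algebraMap (𝓞 K) K), map_prod, norm_prod]
    exact Finset.prod_congr rfl fun σ _ => by rw [map_pow, map_pow, norm_pow]; rfl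
  have hwc : ∀ σ, w (σ * c) = w σ := fun σ => by
    have hcinv : c⁻¹ = c := inv_eq_of_mul_eq_one_right hc
    show ‖φ ((σ * c)⁻¹ (x : K))‖ = _
    rw [mul_inv_rev, hcinv, AlgEquiv.mul_apply, hconj]
  have hprod : ∏ σ, w σ = ((Ideal.absNorm (Ideal.span {x}) : ℕ) : ℝ) := by
    rw [Fintype.prod_equiv (Equiv.inv _) w (fun σ => ‖φ (σ (x : K))‖) fun σ => rfl, ← norm_prod, ← map_prod,
      ← Algebra.norm_eq_prod_automorphisms, eq_ratCast, map_ratCast, ← Algebra.coe_norm_int,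
      Ideal.absNorm_span_singleton]
    simp [Nat.cast_natAbs, Int.cast_abs]
  have h2 : (∏ σ, w σ ^ expo l σ) = ∏ σ, w σ ^ expo l (σ * c) :=
    (Fintype.prod_equiv (Equiv.mulRight c) _ _ fun σ => by rw [Equiv.coe_mulRight, hwc]).symm
  rw [hpow, pow_two]
  nth_rewrite 1 [h2]
  rw [← Finset.prod_mul_distrib, Finset.prod_congr rfl fun σ _ => show w σ ^ expo l (σ * c) * w σ ^ expo l σ =
    w σ ^ l by rw [← pow_add, hexp], Finset.prod_pow, hprod]

/-- The congruence of `α ^ γ`. -/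
theorem stickPow_congr (hl2 : l ≠ 2) {α : 𝓞 K} (h : IsSemiPrimary l α) :
    ∃ s : ℤ, s ^ 2 = 1 ∧ (zl - 1) ^ 2 ∣ stickPow l α - (s : 𝓞 K) := by
  have : NeZero l := ⟨hl.out.ne_zero⟩
  obtain ⟨c, hc, hexp, -⟩ := exists_conj (l := l) (K := K)
  obtain ⟨n, hn, h⟩ := h
  set J := Ideal.span {(zl - 1) ^ 2}
  set S := ∑ σ : K ≃ₐ[ℚ] K, expo l σ with hS
  obtain ⟨k, hk⟩ := hl.out.odd_of_ne_two hl2
  have hsum : S = l * k := by
    have h2 : ∑ σ : K ≃ₐ[ℚ] K, expo l (σ * c) = S := Fintype.sum_equiv (Equiv.mulRight c) _ _ fun σ => rfl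
    have h3 : S + S = l * (2 * k) := by
      conv_lhs => arg 1; rw [← h2]
      rw [hS, ← Finset.sum_add_distrib, Finset.sum_congr rfl fun σ _ => hexp σ, Finset.sum_const, Finset.card_univ,
        ← Nat.card_eq_fintype_card, Nat.card_congr (IsCyclotomicExtension.Rat.galEquivZMod l K).toEquiv,
        Nat.card_eq_fintype_card, ZMod.card_units, smul_eq_mul, hk, Nat.add_sub_cancel]
      ring
    linarith
  have hn0 : (n : ZMod l) ≠ 0 := fun e => hn ((ZMod.intCast_zmod_eq_zero_iff_dvd n l).mp e)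
  obtain ⟨s, hs, hns⟩ : ∃ s : ℤ, s ^ 2 = 1 ∧ (n : ZMod l) ^ k = (s : ZMod l) := by
    have h1 : ((n : ZMod l) ^ k) * (n : ZMod l) ^ k = 1 := by
      rw [← pow_add, show k + k = l - 1 by omega, ZMod.pow_card_sub_one_eq_one hn0]
    rcases mul_self_eq_one_iff.mp h1 with h1 | h1
    · exact ⟨1, one_pow 2, by rw [h1, Int.cast_one]⟩
    · exact ⟨-1, by norm_num, by rw [h1, Int.cast_neg, Int.cast_one]⟩
  refine ⟨s, hs, ?_⟩
  have hres : ∀ σ : K ≃ₐ[ℚ] K, Ideal.Quotient.mk J (intAut σ⁻¹ α) = Ideal.Quotient.mk J (n : 𝓞 K) := fun σ => by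
    rw [Ideal.Quotient.eq, Ideal.mem_span_singleton]
    obtain ⟨t, ht⟩ := h ((intAut σ⁻¹).symm zl)
      ((zetaInt_isPrimitiveRoot (l := l) (K := K)).map_of_injective (intAut σ⁻¹).symm.injective)
    refine ⟨intAut σ⁻¹ t, ?_⟩
    have := congrArg (intAut σ⁻¹) ht
    rwa [map_mul, map_pow, map_sub, map_sub, map_one, RingEquiv.apply_symm_apply, map_intCast] at this
  have hcast : (n : ZMod l) ^ S = (s : ZMod l) := by
    rw [hsum, mul_comm, pow_mul, ZMod.pow_card, hns]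
  rw [← Ideal.mem_span_singleton, ← Ideal.Quotient.eq]
  calc Ideal.Quotient.mk J (stickPow l α) = Ideal.Quotient.mk J (n : 𝓞 K) ^ S := by
        rw [stickPow, map_prod, hS, ← Finset.prod_pow_eq_pow_sum]
        exact Finset.prod_congr rfl fun σ _ => by rw [map_pow, hres]
    _ = _ := by
        rw [← map_pow, Ideal.Quotient.eq, Ideal.mem_span_singleton, ← Int.cast_pow, ← Int.cast_sub]
        obtain ⟨t, ht⟩ : (l : ℤ) ∣ n ^ S - s := by
          rw [← ZMod.intCast_zmod_eq_zero_iff_dvd, Int.cast_sub, Int.cast_pow, hcast, sub_self]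
        rw [ht, Int.cast_mul, Int.cast_natCast]
        exact (lambda_sq_dvd_natCast hl2).mul_right _

/-- A unit of absolute value `1` everywhere whose square is `1` modulo `(ζ - 1) ^ 2` is `± 1`. -/
theorem unit_eq_one_or_neg_one (hl2 : l ≠ 2) {u : (𝓞 K)ˣ} (hu1 : ∀ φ : K →+* ℂ, ‖φ ((u : 𝓞 K) : K)‖ = 1)
    (hu : (zl - 1) ^ 2 ∣ (u : 𝓞 K) ^ 2 - 1) : (u : 𝓞 K) = 1 ∨ (u : 𝓞 K) = -1 := by
  have : NeZero l := ⟨hl.out.ne_zero⟩
  obtain ⟨k, hk0, hk⟩ := NumberField.Embeddings.pow_eq_one_of_norm_eq_one K ℂ (u : 𝓞 K).2 hu1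
  have hz := IsCyclotomicExtension.zeta_spec l ℚ K
  obtain ⟨r, -, hr⟩ := hz.exists_pow_or_neg_mul_pow_of_isOfFinOrder (hl.out.odd_of_ne_two hl2)
    (isOfFinOrder_iff_pow_eq_one.mpr ⟨k, hk0, hk⟩)
  have hu2 : (u : 𝓞 K) ^ 2 = zl ^ (2 * r) := by
    refine RingOfIntegers.ext ?_
    rw [pow_mul']
    show algebraMap (𝓞 K) K ((u : 𝓞 K) ^ 2) = algebraMap (𝓞 K) K ((zl ^ r) ^ 2)
    rw [map_pow, map_pow, map_pow]
    show ((u : 𝓞 K) : K) ^ 2 = (IsCyclotomicExtension.zeta l ℚ K ^ r) ^ 2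
    rcases hr with hr | hr
    · exact congrArg (· ^ 2) hr
    · exact (congrArg (· ^ 2) hr).trans (neg_sq _)
  have hrl : l ∣ 2 * r := by
    by_contra hnd
    rw [hu2] at hu
    have h5 := hu.trans (zetaInt_isPrimitiveRoot.associated_sub_one_pow_sub_one_of_coprime
      (hl.out.coprime_iff_not_dvd.mpr hnd).symm).symm.dvd
    have h6 : zl - 1 ∣ 1 := (mul_dvd_mul_iff_left (prime_lambda (l := l) (K := K)).ne_zero).mp
      (by rwa [mul_one, ← pow_two])
    exact prime_lambda.not_isUnit (isUnit_of_dvd_one h6)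
  rw [(zetaInt_isPrimitiveRoot (l := l) (K := K)).pow_eq_one_iff_dvd _ |>.mpr hrl, sq_eq_one_iff] at hu2
  exact hu2

/-- The element of `(α)` is `± α ^ γ`. -/
theorem eq_or_eq_neg_stickPow (hl2 : l ≠ 2) {α Φ : 𝓞 K} (h : IsSemiPrimary l α)
    (hspan : stickIdeal l (Ideal.span {α}) = Ideal.span {Φ}) (hΦl : (l : 𝓞 K) ∣ Φ - 1)
    (habs : ∀ φ : K →+* ℂ, ‖φ (Φ : K)‖ ^ 2 = ((Ideal.absNorm (Ideal.span {α}) : ℕ) : ℝ) ^ l) :
    Φ = stickPow l α ∨ Φ = -stickPow l α := by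
  have : NeZero l := ⟨hl.out.ne_zero⟩
  rw [stickIdeal_span, Ideal.span_singleton_eq_span_singleton] at hspan
  obtain ⟨u, hu⟩ := hspan
  have hN : ((Ideal.absNorm (Ideal.span {α}) : ℕ) : ℝ) ^ l ≠ 0 := pow_ne_zero _ (Nat.cast_ne_zero.mpr fun e =>
    h.ne_zero (by simpa [Ideal.absNorm_eq_zero_iff] using e))
  have hu1 : ∀ φ : K →+* ℂ, ‖φ ((u : 𝓞 K) : K)‖ = 1 := fun φ => by
    have h1 := habs φ
    rw [← hu, show ((stickPow l α * u : 𝓞 K) : K) = (stickPow l α : K) * ((u : 𝓞 K) : K) from map_mul _ _ _,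
      map_mul, norm_mul, mul_pow, norm_stickPow] at h1
    exact (sq_eq_one_iff.mp (mul_left_cancel₀ hN (h1.trans (mul_one _).symm))).resolve_right fun e => by
      linarith [norm_nonneg (φ ((u : 𝓞 K) : K))]
  obtain ⟨s, hs, hss⟩ := stickPow_congr hl2 h
  set J := Ideal.span {(zl - 1) ^ 2}
  have hsJ : Ideal.Quotient.mk J (stickPow l α) = (s : 𝓞 K ⧸ J) := by
    rw [← map_intCast (Ideal.Quotient.mk J), Ideal.Quotient.eq, Ideal.mem_span_singleton]
    exact hss
  have hΦJ : Ideal.Quotient.mk J Φ = 1 := by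
    rw [← map_one (Ideal.Quotient.mk J), Ideal.Quotient.eq, Ideal.mem_span_singleton]
    exact (lambda_sq_dvd_natCast hl2).trans hΦl
  have hu3 : (zl - 1) ^ 2 ∣ (u : 𝓞 K) ^ 2 - 1 := by
    rw [← Ideal.mem_span_singleton, ← Ideal.Quotient.eq, map_pow, map_one]
    rw [← hu, map_mul, hsJ] at hΦJ
    have h4 := congrArg (· ^ 2) hΦJ
    simp only [mul_pow, one_pow, ← Int.cast_pow, hs, Int.cast_one, one_mul] at h4
    exact h4
  rcases unit_eq_one_or_neg_one hl2 hu1 hu3 with hu2 | hu2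
  · exact Or.inl (by rw [← hu, hu2, mul_one])
  · exact Or.inr (by rw [← hu, hu2, mul_neg, mul_one])

/-- The symbol of `α ^ γ`. -/
theorem symbol_stickPow {B : Ideal (𝓞 K)} (hB0 : B ≠ 0) (hB : l.Coprime (Ideal.absNorm B)) {x : 𝓞 K}
    (hx : (Ideal.absNorm (Ideal.span {x})).Coprime (Ideal.absNorm B)) :
    symbol l B (stickPow l x) = symbol l (Ideal.span {((Ideal.absNorm B : ℕ) : 𝓞 K)}) x := by
  have : NeZero l := ⟨hl.out.ne_zero⟩
  rw [← prod_map_intAut hB0 hB, symbol_prod_left _ _ fun σ _ h =>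
    hB0 ((Ideal.map_eq_bot_iff_of_injective (f := (intAut σ : 𝓞 K →+* 𝓞 K)) (intAut σ).injective).mp h),
    stickPow, symbol_prod_right hB]
  refine Finset.prod_congr rfl fun σ _ => ?_
  have hroot : symbol l B (intAut σ⁻¹ x) ^ l = 1 := by
    refine symbol_pow_card hB (primeTo_of_coprime ?_)
    have hN : Ideal.absNorm (Ideal.span {intAut σ⁻¹ x}) = Ideal.absNorm (Ideal.span {x}) := by
      rw [show Ideal.span {intAut σ⁻¹ x} = (Ideal.span {x}).map (intAut σ⁻¹ : 𝓞 K →+* 𝓞 K) by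
        rw [Ideal.map_span, Set.image_singleton]; rfl]
      simp only [Ideal.absNorm_apply, Submodule.cardQuot_apply]
      exact (Nat.card_congr (Ideal.quotientEquiv (Ideal.span {x}) _ (intAut σ⁻¹) rfl).toEquiv).symm
    rwa [hN]
  rw [symbol_pow_right hB, ← intAut_of_pow_eq_one σ hroot, ← symbol_map hB hB0,
    show intAut σ (intAut σ⁻¹ x) = x from RingOfIntegers.ext (σ.apply_symm_apply (x : K))]

/-- **The general reciprocity law**: `(α / N B) = (N B / α)`. -/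
theorem symbol_absNorm_eq (hl2 : l ≠ 2) {α : 𝓞 K} (h : IsSemiPrimary l α) {B : Ideal (𝓞 K)} (hB0 : B ≠ 0)
    (hB : l.Coprime (Ideal.absNorm B)) (hαB : (Ideal.absNorm (Ideal.span {α})).Coprime (Ideal.absNorm B)) :
    symbol l B (stickPow l α) = symbol l (Ideal.span {α}) ((Ideal.absNorm B : ℕ) : 𝓞 K) ∧
      symbol l (Ideal.span {((Ideal.absNorm B : ℕ) : 𝓞 K)}) α =
        symbol l (Ideal.span {α}) ((Ideal.absNorm B : ℕ) : 𝓞 K) := by
  obtain ⟨Φ, h1, h2, h3, h4⟩ := exists_phi hl2 (show Ideal.span {α} ≠ 0 by simpa using h.ne_zero) h.coprime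
  have h5 : symbol l B (stickPow l α) = symbol l (Ideal.span {α}) ((Ideal.absNorm B : ℕ) : 𝓞 K) := by
    rw [← h4 B hB0 hB hαB]
    rcases eq_or_eq_neg_stickPow hl2 h h1 h2 h3 with e | e
    · rw [e]
    · rw [e, neg_eq_neg_one_mul (stickPow l α), symbol_mul_right hB, symbol_neg_one hl2 hB, one_mul]
  exact ⟨h5, (symbol_stickPow hB0 hB hαB).symm.trans h5⟩

omit hl [IsCyclotomicExtension {l} ℚ K] in
theorem absNorm_span_natCast (n : ℕ) :
    Ideal.absNorm (Ideal.span {(n : 𝓞 K)}) = n ^ Module.finrank ℤ (𝓞 K) := by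
  rw [Ideal.absNorm_span_singleton, ← map_natCast (algebraMap ℤ (𝓞 K)), Algebra.norm_algebraMap, Int.natAbs_pow,
    Int.natAbs_natCast]

/-- Eisenstein's law for a prime. -/
theorem eisenstein_prime (hl2 : l ≠ 2) {α : 𝓞 K} (h : IsSemiPrimary l α) {p : ℕ} (hp : p.Prime) (hpl : p ≠ l)
    (hpα : p.Coprime (Ideal.absNorm (Ideal.span {α}))) :
    symbol l (Ideal.span {(p : 𝓞 K)}) α = symbol l (Ideal.span {α}) (p : 𝓞 K) := by
  have : NeZero l := ⟨hl.out.ne_zero⟩
  have := Fact.mk hp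
  have hne : Ideal.span {(p : 𝓞 K)} ≠ ⊤ := fun e => by
    have h1 := congrArg Ideal.absNorm e
    rw [absNorm_span_natCast, Ideal.absNorm_top] at h1
    exact (Nat.one_lt_pow Module.finrank_pos.ne' hp.one_lt).ne' h1
  obtain ⟨P, hP, hle⟩ := Ideal.exists_le_maximal _ hne
  have hp0 : (p : 𝓞 K) ≠ 0 := Nat.cast_ne_zero.mpr hp.ne_zero
  have hP0 : P ≠ ⊥ := fun e => hp0 (by simpa [e] using hle (Ideal.mem_span_singleton_self _))
  let v : HeightOneSpectrum (𝓞 K) := ⟨P, hP.isPrime, hP0⟩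
  have hql : ¬ p ∣ l := fun e => hpl ((Nat.prime_dvd_prime_iff_eq hp hl.out).mp e)
  have hN : Ideal.absNorm P = p ^ orderOf (p : ZMod l) :=
    absNorm_eq (v := v) (hle (Ideal.mem_span_singleton_self _)) hql
  set f := orderOf (p : ZMod l) with hf
  have hlp : l.Coprime p := (Nat.coprime_primes hl.out hp).mpr hpl.symm
  have hB : l.Coprime (Ideal.absNorm (Ideal.span {(p : 𝓞 K)})) := by
    rw [absNorm_span_natCast]
    exact hlp.pow_right _
  have hαP : (Ideal.absNorm (Ideal.span {α})).Coprime (Ideal.absNorm (Ideal.span {(p : 𝓞 K)})) := by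
    rw [absNorm_span_natCast]
    exact hpα.symm.pow_right _
  have key := (symbol_absNorm_eq hl2 h (B := P) hP0 (by rw [hN]; exact hlp.pow_right f)
    (by rw [hN]; exact hpα.symm.pow_right f)).2
  rw [hN, Nat.cast_pow, ← Ideal.span_singleton_pow, symbol_pow_left
    (show Ideal.span {(p : 𝓞 K)} ≠ 0 by simpa using hp0),
    symbol_pow_right h.coprime] at key
  have hf1 : f ∣ l - 1 := ZMod.orderOf_dvd_card_sub_one fun e => hql (by
    rw [ZMod.natCast_eq_zero_iff] at e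
    exact absurd e (fun e => hpl ((Nat.prime_dvd_prime_iff_eq hl.out hp).mp e).symm))
  have hcop : f.Coprime l := (hl.out.coprime_iff_not_dvd.mpr fun e => by
    have := hl.out.two_le
    have := Nat.le_of_dvd (by omega) (e.trans hf1)
    omega).symm
  obtain ⟨k, -, hk⟩ := Nat.exists_mul_mod_eq_one_of_coprime hcop hl.out.one_lt
  have h1 := symbol_pow_card hB (primeTo_of_coprime hαP)
  have h2 := symbol_pow_card h.coprime (primeTo_natCast hpα)
  rw [← pow_one (symbol l (Ideal.span {(p : 𝓞 K)}) α), ← pow_one (symbol l (Ideal.span {α}) (p : 𝓞 K)), ← hk,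
    ← pow_eq_pow_mod _ h1, ← pow_eq_pow_mod _ h2, pow_mul, pow_mul, key]

/-- Eisenstein's law for natural numbers. -/
theorem eisenstein_nat (hl2 : l ≠ 2) {α : 𝓞 K} (h : IsSemiPrimary l α) {n : ℕ} (hn : ¬ l ∣ n)
    (hnα : n.Coprime (Ideal.absNorm (Ideal.span {α}))) :
    symbol l (Ideal.span {(n : 𝓞 K)}) α = symbol l (Ideal.span {α}) (n : 𝓞 K) := by
  induction n using induction_on_prime with
  | h₁ => exact absurd (dvd_zero l) hn
  | h₂ a ha =>
    rw [Nat.isUnit_iff.mp ha, Nat.cast_one, Ideal.span_singleton_one, symbol_top, symbol_one_right h.coprime]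
  | h₃ a p ha hp ih =>
    have hp' := Nat.prime_iff.mpr hp
    have hp0 : Ideal.span {(p : 𝓞 K)} ≠ 0 := by simpa using hp'.ne_zero
    have ha0 : Ideal.span {(a : 𝓞 K)} ≠ 0 := by simpa using ha
    rw [Nat.cast_mul, ← Ideal.span_singleton_mul_span_singleton, symbol_mul_left hp0 ha0,
      symbol_mul_right h.coprime,
      eisenstein_prime hl2 h hp' (fun e => hn (e ▸ dvd_mul_right p a)) hnα.coprime_mul_right,
      ih (fun e => hn (e.mul_left p)) hnα.coprime_mul_left]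

/-- **Eisenstein's reciprocity law.** -/
theorem eisenstein_int (hl2 : l ≠ 2) {α : 𝓞 K} (h : IsSemiPrimary l α) {a : ℤ} (ha : ¬ (l : ℤ) ∣ a)
    (haα : a.natAbs.Coprime (Ideal.absNorm (Ideal.span {α}))) :
    symbol l (Ideal.span {(a : 𝓞 K)}) α = symbol l (Ideal.span {α}) (a : 𝓞 K) := by
  have hn : ¬ l ∣ a.natAbs := fun e => ha (Int.natCast_dvd.mpr e)
  have key := eisenstein_nat hl2 h hn haα
  rcases Int.natAbs_eq a with e | e
  · rw [e, Int.cast_natCast]
    exact key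
  · rw [e, Int.cast_neg, Int.cast_natCast, Ideal.span_singleton_neg, key,
      neg_eq_neg_one_mul ((a.natAbs : ℕ) : 𝓞 K), symbol_mul_right h.coprime, symbol_neg_one hl2 h.coprime, one_mul]

end FA.PowerReciprocity
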