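import Fermat.Agent.GaussValuation.Factorisation
import Fermat.Agent.PowerReciprocity.Symbol

/-!
# The `l`-th power of a Gauss sum

For a prime `v` of `ℚ(ζ_l)` prime to `l` and the inverse `η` of its residue character, `Φ = (-g(η)) ^ l` lies in
`ℤ[ζ_l]`: it generates `∏ (σ⁻¹ v) ^ a(σ)`, is `1` modulo `l`, has absolute value `N v ^ (l / 2)` at every embedding,
and its symbol at a prime `R` is the symbol of `N R` at `v`.
-/

set_option autoImplicit false
set_option linter.unusedSectionVars false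

noncomputable section

open NumberField IsDedekindDomain
open scoped Classical

namespace FA.PowerReciprocity

open FA.IwasawaStructure FA.GaussValuation

theorem gaussSum_map {F R S : Type*} [CommRing F] [Fintype F] [CommRing R] [CommRing S] (f : R →+* S)
    (χ : MulChar F R) (ψ : AddChar F R) :
    f (gaussSum χ ψ) = gaussSum (χ.ringHomComp f) (f.toMonoidHom.compAddChar ψ) := by
  rw [gaussSum, gaussSum, map_sum]
  simp only [map_mul]
  rfl

/-- A Gauss sum to the power of a power of the characteristic of the target. -/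
theorem gaussSum_pow_char_pow {F R : Type*} [CommRing F] [Fintype F] [CommRing R] {p : ℕ} [hp : Fact p.Prime]
    [CharP R p] (χ : MulChar F R) (ψ : AddChar F R) (e : ℕ) :
    gaussSum χ ψ ^ p ^ e = gaussSum (χ ^ p ^ e) (ψ ^ p ^ e) := by
  rw [← iterateFrobenius_def, gaussSum, gaussSum, map_sum]
  refine Finset.sum_congr rfl fun a _ => ?_
  rw [iterateFrobenius_def, mul_pow, MulChar.pow_apply' χ (pow_ne_zero e hp.out.ne_zero), AddChar.pow_apply]

/-- The identity of the Jacobi product with the power of a Gauss sum. -/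
theorem map_jacobi_eq_gaussSum_pow {F R A : Type*} [Field F] [Fintype F] [CommRing R] [CommRing A] [IsDomain A]
    {l : ℕ} [hl : Fact l.Prime] (hl2 : l ≠ 2) {η : MulChar F R} (hηl : η ^ l = 1) (hη1 : η ≠ 1) (hneg : η (-1) = 1)
    (g : R →+* A) (hg : Function.Injective g) {ψ : AddChar F A} (hψ : ψ.IsPrimitive) :
    g (-(Fintype.card F : R) * ∏ j ∈ Finset.Ico 1 (l - 1), jacobiSum η (η ^ j)) =
      (-gaussSum (η.ringHomComp g) ψ) ^ l := by
  have hord : orderOf (η.ringHomComp g) = l :=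
    orderOf_eq_prime (by rw [MulChar.ringHomComp_pow, hηl, MulChar.ringHomComp_one])
      ((MulChar.ringHomComp_ne_one_iff hg).mpr hη1)
  have h := gaussSum_pow_eq_prod_jacobiSum (χ := η.ringHomComp g) (by rw [hord]; exact hl.out.two_le) hψ
  rw [hord, MulChar.ringHomComp_apply, hneg, map_one, one_mul] at h
  rw [(hl.out.odd_of_ne_two hl2).neg_pow, h, map_mul, map_neg, map_natCast, map_prod, neg_mul]
  congr 2
  refine Finset.prod_congr rfl fun j _ => ?_
  rw [MulChar.ringHomComp_pow, jacobiSum_ringHomComp]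

variable {l : ℕ} [hl : Fact l.Prime] {K : Type*} [Field K] [NumberField K] [IsCyclotomicExtension {l} ℚ K]

theorem sub_one_mul_expo_div (σ : K ≃ₐ[ℚ] K) : (l - 1) * expo l σ / l + 1 = expo l σ := by
  have : NeZero l := ⟨hl.out.ne_zero⟩
  have h1 := hl.out.two_le
  have ha : expo l σ < l := ZMod.val_lt _
  have ha0 : 0 < expo l σ := Nat.pos_of_ne_zero fun h => by
    have := coprime_expo (m := l) σ
    rw [h, Nat.coprime_zero_left] at this
    omega
  have e : (l - 1) * expo l σ = (l - expo l σ) + l * (expo l σ - 1) := by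
    zify [show 1 ≤ l by omega, ha.le, show 1 ≤ expo l σ from ha0]
    ring
  rw [e, Nat.add_mul_div_left _ _ (by omega), Nat.div_eq_of_lt (by omega)]
  omega

/-- **The `l`-th power of the Gauss sum at `v`.** -/
theorem exists_phi_prime (hl2 : l ≠ 2) {q : ℕ} [hq : Fact q.Prime] {v : HeightOneSpectrum (𝓞 K)}
    (hqv : (q : 𝓞 K) ∈ v.asIdeal) (hql : ¬ q ∣ l) :
    ∃ Φ : 𝓞 K, ∏ σ : K ≃ₐ[ℚ] K, (conjAt v σ).asIdeal ^ expo l σ = Ideal.span {Φ} ∧ (l : 𝓞 K) ∣ Φ - 1 ∧
      (∀ φ : K →+* ℂ, ‖φ (Φ : K)‖ ^ 2 = ((Ideal.absNorm v.asIdeal : ℕ) : ℝ) ^ l) ∧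
      (∀ R : Ideal (𝓞 K), R.IsMaximal → (l : 𝓞 K) ∉ R → (q : 𝓞 K) ∉ R →
        symbolPrime l R Φ = symbolPrime l v.asIdeal ((Ideal.absNorm R : ℕ) : 𝓞 K)) ∧
      ∀ [Fintype (𝓞 K ⧸ v.asIdeal)], ∃ χ : MulChar (𝓞 K ⧸ v.asIdeal) (𝓞 K),
        (∀ x, χ (Ideal.Quotient.mk v.asIdeal x) = symbolPrime l v.asIdeal x) ∧
        ∀ (φ : K →+* ℂ) (ψ : AddChar (𝓞 K ⧸ v.asIdeal) ℂ), ψ.IsPrimitive →
          φ (Φ : K) = (-gaussSum (χ⁻¹.ringHomComp (φ.comp (algebraMap (𝓞 K) K))) ψ) ^ l := by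
  have : NeZero l := ⟨hl.out.ne_zero⟩
  have := v.isMaximal
  let := Fintype.ofFinite (𝓞 K ⧸ v.asIdeal)
  let := Ideal.Quotient.field v.asIdeal
  have hlv := notMem_of_not_dvd hqv hql
  have : CharP (𝓞 K ⧸ v.asIdeal) q := by
    refine (CharP.charP_iff_prime_eq_zero hq.out).mpr ?_
    rw [← map_natCast (Ideal.Quotient.mk v.asIdeal), Ideal.Quotient.eq_zero_iff_mem]
    exact hqv
  let := ZMod.algebra (𝓞 K ⧸ v.asIdeal) q
  set f := orderOf (q : ZMod l)
  have hNv : Ideal.absNorm v.asIdeal = q ^ f := absNorm_eq hqv hql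
  obtain ⟨r, hr⟩ : l ∣ Fintype.card (𝓞 K ⧸ v.asIdeal) - 1 := card_quotient (P := v.asIdeal) ▸ dvd_absNorm_sub_one hlv
  have hr' : (Ideal.absNorm v.asIdeal - 1) / l = r := by
    rw [← card_quotient, hr, Nat.mul_div_cancel_left _ hl.out.pos]
  obtain ⟨χ, hχl, hχ'⟩ := exists_residueCharacter hlv (zetaInt_isPrimitiveRoot (l := l) (K := K))
    (RingHom.id (𝓞 K ⧸ v.asIdeal)) hr
  have hχ : ∀ x, Ideal.Quotient.mk v.asIdeal (χ x) = x ^ r := hχ'
  obtain ⟨hγ0, hspan, -⟩ := prod_jacobiSum_spec hqv hql (b := l - 1) (Nat.sub_lt hl.out.pos one_pos) hr hχl hχ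
  set η := χ⁻¹ with hη
  set γ := ∏ j ∈ Finset.Ico 1 (l - 1), jacobiSum η (η ^ j) with hγ
  have hηl : η ^ l = 1 := by rw [hη, inv_pow, hχl, inv_one]
  have hη1 : η ≠ 1 := fun h => by
    have h1 : ∀ u : (𝓞 K ⧸ v.asIdeal)ˣ, u ^ r = 1 := fun u => by
      have h2 := congrArg (Ideal.Quotient.mk v.asIdeal) (DFunLike.congr_fun (inv_eq_one.mp (hη ▸ h))
        (u : 𝓞 K ⧸ v.asIdeal))
      rw [hχ, MulChar.one_apply_coe, map_one] at h2
      exact Units.ext (by rw [Units.val_pow_eq_pow_val, h2, Units.val_one])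
    have h3 := (FiniteField.forall_pow_eq_one_iff (𝓞 K ⧸ v.asIdeal) r).mp h1
    have hr0 : 0 < r := Nat.pos_of_ne_zero fun e => exponent_ne_zero hlv (hr'.trans e)
    rw [hr] at h3
    have := Nat.le_of_dvd hr0 h3
    nlinarith [hl.out.two_le]
  have hodd := hl.out.odd_of_ne_two hl2
  have hneg : η (-1) = 1 := by
    have h : η (-1) = (η ^ l) (-1) := by
      rw [MulChar.pow_apply' η hl.out.ne_zero, ← map_pow, hodd.neg_one_pow]
    rw [h, hηl, MulChar.one_apply isUnit_one.neg]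
  set Φ := -((Ideal.absNorm v.asIdeal : ℕ) : 𝓞 K) * γ with hΦ
  -- the identity with the Gauss sum
  have hcardΦ : Φ = -((Fintype.card (𝓞 K ⧸ v.asIdeal) : ℕ) : 𝓞 K) * γ := by rw [hΦ, card_quotient]
  refine ⟨Φ, ?_, ?_, ?_, ?_, ?_⟩
  · have hQ : Ideal.span {((Ideal.absNorm v.asIdeal : ℕ) : 𝓞 K)} = ∏ σ : K ≃ₐ[ℚ] K, (conjAt v σ).asIdeal := by
      rw [prod_conjAt_eq_span_pow hqv hql, hNv, Nat.cast_pow]
    rw [hΦ, ← Ideal.span_singleton_mul_span_singleton, Ideal.span_singleton_neg, hQ, ← hspan,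
      ← Finset.prod_mul_distrib]
    exact Finset.prod_congr rfl fun σ _ => by rw [← pow_succ', sub_one_mul_expo_div]
  -- congruence modulo `l`
  · let M := CyclotomicField q K
    have hζ := (IsCyclotomicExtension.zeta_spec q K M).toInteger_isPrimitiveRoot
    set ι := algebraMap (𝓞 K) (𝓞 M)
    set ψ : AddChar (𝓞 K ⧸ v.asIdeal) (𝓞 M) := traceChar hζ.pow_eq_one with hψ
    have hΦM : ι Φ = _ := hcardΦ ▸ map_jacobi_eq_gaussSum_pow hl2 hηl hη1 hneg ι (FaithfulSMul.algebraMap_injective _ _)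
      (AddChar.IsPrimitive.of_ne_one (traceChar_ne_one hζ) : ψ.IsPrimitive)
    set J := Ideal.span {(l : 𝓞 M)}
    have hJ : J ≠ ⊤ := fun h => by
      rw [Ideal.span_singleton_eq_top] at h
      obtain ⟨Q, hQ, hQl⟩ := Ideal.exists_le_maximal _
        (show Ideal.span {(l : 𝓞 K)} ≠ ⊤ by
          intro h'
          have h1 := congrArg Ideal.absNorm h'
          rw [Ideal.absNorm_top, Ideal.absNorm_span_singleton, ← map_natCast (algebraMap ℤ (𝓞 K)),
            Algebra.norm_algebraMap, Int.natAbs_pow, Int.natAbs_natCast] at h1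
          exact (Nat.one_lt_pow Module.finrank_pos.ne' hl.out.one_lt).ne' h1)
      obtain ⟨W, hW, hWQ⟩ := Ideal.exists_maximal_ideal_liesOver_of_isIntegral (S := 𝓞 M) Q
      refine hW.ne_top (W.eq_top_of_isUnit_mem ?_ h)
      rw [← map_natCast ι, ← Ideal.mem_comap, ← Ideal.under_def, ← hWQ.over]
      exact hQl (Ideal.mem_span_singleton_self _)
    have : Nontrivial (𝓞 M ⧸ J) := Ideal.Quotient.nontrivial_iff.mpr hJ
    have : CharP (𝓞 M ⧸ J) l := by
      refine (CharP.charP_iff_prime_eq_zero hl.out).mpr ?_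
      rw [← map_natCast (Ideal.Quotient.mk J), Ideal.Quotient.eq_zero_iff_mem]
      exact Ideal.mem_span_singleton_self _
    have hne : ψ ^ l ≠ 1 := fun h => by
      obtain ⟨x, hx⟩ := Algebra.trace_surjective (ZMod q) (𝓞 K ⧸ v.asIdeal) 1
      have h1 := DFunLike.congr_fun h x
      rw [AddChar.pow_apply, AddChar.one_apply, hψ, traceChar_apply, hx, ZMod.val_one, pow_one] at h1
      exact hql (hζ.dvd_of_pow_eq_one _ h1)
    have hmk : Ideal.Quotient.mk J (ι Φ - 1) = 0 := by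
      have h1 : Ideal.Quotient.mk J (gaussSum (η.ringHomComp ι) ψ ^ l) = -1 := by
        rw [map_pow, gaussSum_map, gaussSum_frob l, MulChar.ringHomComp_pow, MulChar.ringHomComp_pow, hηl,
          MulChar.ringHomComp_one,
          show ((Ideal.Quotient.mk J).toMonoidHom.compAddChar ψ) ^ l =
            (Ideal.Quotient.mk J).toMonoidHom.compAddChar (ψ ^ l) from DFunLike.ext _ _ fun x => by
              simp [AddChar.pow_apply],
          ← gaussSum_map, gaussSum_one_left hne, map_neg, map_one]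
      rw [map_sub, map_one, hΦM, hodd.neg_pow, map_neg, h1, neg_neg, sub_self]
    rw [Ideal.Quotient.eq_zero_iff_mem, Ideal.mem_span_singleton] at hmk
    obtain ⟨y, hy⟩ := hmk
    have hlK : (l : K) ≠ 0 := Nat.cast_ne_zero.mpr hl.out.ne_zero
    have hint : IsIntegral ℤ (((Φ : K) - 1) / (l : K)) := by
      refine (isIntegral_algebraMap_iff (algebraMap K M).injective).mp ?_
      have h2 : algebraMap K M (((Φ : K) - 1) / (l : K)) = (y : M) := by
        rw [map_div₀, map_natCast, div_eq_iff (Nat.cast_ne_zero.mpr hl.out.ne_zero), map_sub, map_one]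
        have h3 := congrArg (fun z : 𝓞 M => (z : M)) hy
        simp only [map_sub, map_one, map_mul, map_natCast] at h3
        rw [mul_comm, ← h3]
        rfl
      rw [h2]
      exact y.2
    exact ⟨⟨_, hint⟩, RingOfIntegers.ext (by
      simp only [map_sub, map_one, map_mul, map_natCast]
      exact (mul_div_cancel₀ _ hlK).symm)⟩
  -- the absolute values
  · intro φ
    have hζ := Complex.isPrimitiveRoot_exp q hq.out.ne_zero
    set g := φ.comp (algebraMap (𝓞 K) K)
    set ψ : AddChar (𝓞 K ⧸ v.asIdeal) ℂ := traceChar hζ.pow_eq_one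
    have hprim : ψ.IsPrimitive := AddChar.IsPrimitive.of_ne_one (traceChar_ne_one hζ)
    have hinj : Function.Injective g := φ.injective.comp RingOfIntegers.coe_injective
    have hΦC : g Φ = _ := hcardΦ ▸ map_jacobi_eq_gaussSum_pow hl2 hηl hη1 hneg g hinj hprim
    have hsq : ‖gaussSum (η.ringHomComp g) ψ‖ ^ 2 = ((Ideal.absNorm v.asIdeal : ℕ) : ℝ) := by
      have h := gaussSum_mul_gaussSum_eq_card ((MulChar.ringHomComp_ne_one_iff hinj).mpr hη1) hprim
      rw [← star_gaussSum_eq, ← starRingEnd_apply, Complex.mul_conj', card_quotient] at h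
      exact_mod_cast h
    rw [show φ (Φ : K) = g Φ from rfl, hΦC, norm_pow, norm_neg, ← pow_mul, mul_comm, pow_mul, hsq]
  -- the symbol
  · intro R hR hlR hqR
    let := Fintype.ofFinite (𝓞 K ⧸ R)
    let := Ideal.Quotient.field R
    obtain ⟨p, hp⟩ := CharP.exists (𝓞 K ⧸ R)
    have hpp : p.Prime := CharP.char_is_prime (𝓞 K ⧸ R) p
    have : Fact p.Prime := ⟨hpp⟩
    obtain ⟨e, -, he⟩ := FiniteField.card (𝓞 K ⧸ R) p
    set N' := Ideal.absNorm R with hN'
    have hN : N' = p ^ (e : ℕ) := by rw [hN', ← card_quotient, he]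
    have hpR : (p : 𝓞 K) ∈ R := by
      rw [← Ideal.Quotient.eq_zero_iff_mem, map_natCast, CharP.cast_eq_zero]
    have hqp : ¬ q ∣ N' := fun h => by
      rw [hN] at h
      rw [(Nat.prime_dvd_prime_iff_eq hq.out hpp).mp (hq.out.dvd_of_dvd_pow h)] at hqR
      exact hqR hpR
    have hN0 : (N' : 𝓞 K ⧸ v.asIdeal) ≠ 0 := fun h => hqp ((CharP.cast_eq_zero_iff _ q N').mp h)
    let M := CyclotomicField q K
    have hζ := (IsCyclotomicExtension.zeta_spec q K M).toInteger_isPrimitiveRoot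
    set ι := algebraMap (𝓞 K) (𝓞 M)
    set ψ : AddChar (𝓞 K ⧸ v.asIdeal) (𝓞 M) := traceChar hζ.pow_eq_one
    have hprim : ψ.IsPrimitive := AddChar.IsPrimitive.of_ne_one (traceChar_ne_one hζ)
    have hΦM : ι Φ = _ := hcardΦ ▸ map_jacobi_eq_gaussSum_pow hl2 hηl hη1 hneg ι
      (FaithfulSMul.algebraMap_injective _ _) hprim
    obtain ⟨W, hW, hWR⟩ := Ideal.exists_maximal_ideal_liesOver_of_isIntegral (S := 𝓞 M) R
    let := Ideal.Quotient.field W
    have hWmem : ∀ x, ι x ∈ W ↔ x ∈ R := fun x => by rw [← Ideal.mem_comap, ← Ideal.under_def, ← hWR.over]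
    have : CharP (𝓞 M ⧸ W) p := by
      refine (CharP.charP_iff_prime_eq_zero hpp).mpr ?_
      rw [← map_natCast (Ideal.Quotient.mk W), Ideal.Quotient.eq_zero_iff_mem, ← map_natCast ι, hWmem]
      exact hpR
    set m := Ideal.Quotient.mk W with hm
    set χ' := (η.ringHomComp ι).ringHomComp m with hχ'
    set ψ' := m.toMonoidHom.compAddChar ψ with hψ'
    set G := gaussSum χ' ψ' with hG
    have hGm : G = m (gaussSum (η.ringHomComp ι) ψ) := (gaussSum_map m _ _).symm
    have hG0 : G ≠ 0 := fun h => by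
      have hprod := congrArg m (gaussSum_mul_gaussSum_eq_card ((MulChar.ringHomComp_ne_one_iff
        (FaithfulSMul.algebraMap_injective (𝓞 K) (𝓞 M))).mpr hη1) hprim)
      rw [map_mul, ← hGm, h, zero_mul, card_quotient, hNv, map_natCast, eq_comm, ← map_natCast m,
        Ideal.Quotient.eq_zero_iff_mem, Nat.cast_pow] at hprod
      have h1 := hW.isPrime.mem_of_pow_mem _ hprod
      rw [← map_natCast ι, hWmem] at h1
      exact hqR h1
    obtain ⟨r', hr'R⟩ : l ∣ N' - 1 := dvd_absNorm_sub_one hlR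
    have hN1 : 1 ≤ N' := by rw [hN]; exact Nat.one_le_pow _ _ hpp.pos
    have hfix : χ' ^ N' = χ' := by
      rw [show N' = l * r' + 1 by omega, pow_succ, pow_mul, hχ']
      simp only [MulChar.ringHomComp_pow, hηl, MulChar.ringHomComp_one, one_pow, one_mul]
    have hfrob : χ' (N' : 𝓞 K ⧸ v.asIdeal) * (-G) ^ N' = -G := by
      rw [hN, ← iterateFrobenius_def, map_neg, iterateFrobenius_def, hG, gaussSum_pow_char_pow, ← hN, hfix,
        AddChar.pow_mulShift, mul_neg, ← Units.val_mk0 hN0, gaussSum_mulShift]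
    have hone : χ' (N' : 𝓞 K ⧸ v.asIdeal) * (-G) ^ (N' - 1) = 1 := by
      refine mul_right_cancel₀ (neg_ne_zero.mpr hG0) ?_
      rw [one_mul, mul_assoc, ← pow_succ, Nat.sub_add_cancel hN1, hfrob]
    set c := χ (N' : 𝓞 K ⧸ v.asIdeal) with hc
    have hcl : c ^ l = 1 := by
      rw [hc, ← Units.val_mk0 hN0, ← MulChar.pow_apply_coe, hχl, MulChar.one_apply_coe]
    have hcv : symbolPrime l v.asIdeal (N' : 𝓞 K) = c :=
      symbolPrime_eq hlv hcl (by rw [hr', map_natCast, hc, hχ])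
    rw [hcv]
    refine symbolPrime_eq hlR hcl ?_
    rw [hr'R, Nat.mul_div_cancel_left _ hl.out.pos, ← map_pow, eq_comm, Ideal.Quotient.eq, ← hWmem, map_sub,
      ← Ideal.Quotient.eq, map_pow, hΦM]
    have h1 : m (ι c) * χ' (N' : 𝓞 K ⧸ v.asIdeal) = 1 := by
      rw [hχ', MulChar.ringHomComp_apply, MulChar.ringHomComp_apply, ← map_mul, ← map_mul, hη, hc,
        ← MulChar.mul_apply, mul_inv_cancel, ← Units.val_mk0 hN0, MulChar.one_apply_coe, map_one, map_one]
    rw [map_pow, map_pow, map_neg, ← hGm, ← pow_mul, ← hr'R]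
    calc (-G) ^ (N' - 1) = (m (ι c) * χ' (N' : 𝓞 K ⧸ v.asIdeal)) * (-G) ^ (N' - 1) := by rw [h1, one_mul]
      _ = m (ι c) := by rw [mul_assoc, hone, mul_one]
  -- the character is the symbol at `v`
  · intro inst
    obtain rfl : inst = Fintype.ofFinite (𝓞 K ⧸ v.asIdeal) := Subsingleton.elim _ _
    refine ⟨χ, fun x => ?_, fun φ ψ hψ => ?_⟩
    · by_cases hx : x ∈ v.asIdeal
      · rw [symbolPrime_eq_zero hlv hx, Ideal.Quotient.eq_zero_iff_mem.mpr hx, MulChar.map_nonunit _ not_isUnit_zero]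
      · refine (symbolPrime_eq hlv ?_ (by rw [hχ, hr'])).symm
        have hu : Ideal.Quotient.mk v.asIdeal x ≠ 0 := fun e => hx (Ideal.Quotient.eq_zero_iff_mem.mp e)
        rw [← Units.val_mk0 hu, ← MulChar.pow_apply_coe, hχl, MulChar.one_apply_coe]
    · exact hcardΦ ▸ map_jacobi_eq_gaussSum_pow hl2 hηl hη1 hneg (φ.comp (algebraMap (𝓞 K) K))
        (φ.injective.comp RingOfIntegers.coe_injective) hψ

end FA.PowerReciprocity
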