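import Fermat.Agent.PowerReciprocity.GaussPower

/-!
# The element attached to an ideal

By multiplicativity the element `Φ` of a prime extends to every ideal `I` prime to `l`: it generates
`∏ (σ⁻¹ I) ^ a(σ)`, is `1` modulo `l`, has absolute value `N I ^ (l / 2)` everywhere, and `(Φ / B) = (N B / I)`.
-/

set_option autoImplicit false
set_option linter.unusedSectionVars false

noncomputable section

open NumberField IsDedekindDomain UniqueFactorizationMonoid
open scoped Classical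

namespace FA.PowerReciprocity

open FA.IwasawaStructure FA.GaussValuation

variable {l : ℕ} [hl : Fact l.Prime] {K : Type*} [Field K] [NumberField K] [IsCyclotomicExtension {l} ℚ K]

/-- `∏ (σ⁻¹ I) ^ a(σ)`. -/
def stickIdeal (l : ℕ) [Fact l.Prime] [IsCyclotomicExtension {l} ℚ K] (I : Ideal (𝓞 K)) : Ideal (𝓞 K) :=
  haveI : NeZero l := ⟨(Fact.out : l.Prime).ne_zero⟩
  ∏ σ : K ≃ₐ[ℚ] K, I.map (intAut σ⁻¹ : 𝓞 K →+* 𝓞 K) ^ expo l σ

/-- `α ^ γ = ∏ (σ⁻¹ α) ^ a(σ)`. -/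
def stickPow (l : ℕ) [Fact l.Prime] [IsCyclotomicExtension {l} ℚ K] (x : 𝓞 K) : 𝓞 K :=
  haveI : NeZero l := ⟨(Fact.out : l.Prime).ne_zero⟩
  ∏ σ : K ≃ₐ[ℚ] K, intAut σ⁻¹ x ^ expo l σ

theorem stickIdeal_mul (I J : Ideal (𝓞 K)) : stickIdeal l (I * J) = stickIdeal l I * stickIdeal l J := by
  simp only [stickIdeal, Ideal.map_mul, mul_pow, Finset.prod_mul_distrib]

theorem stickIdeal_span (x : 𝓞 K) : stickIdeal l (Ideal.span {x}) = Ideal.span {stickPow l x} := by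
  simp only [stickIdeal, stickPow, Ideal.map_span, Set.image_singleton, Ideal.span_singleton_pow,
    Ideal.prod_span_singleton]
  rfl

omit hl [IsCyclotomicExtension {l} ℚ K] in
theorem exists_prime_mem (P : Ideal (𝓞 K)) [P.IsMaximal] :
    ∃ q : ℕ, q.Prime ∧ (q : 𝓞 K) ∈ P ∧ q ∣ Ideal.absNorm P := by
  let := Fintype.ofFinite (𝓞 K ⧸ P)
  let := Ideal.Quotient.field P
  obtain ⟨p, hp⟩ := CharP.exists (𝓞 K ⧸ P)
  have hpp : p.Prime := CharP.char_is_prime (𝓞 K ⧸ P) p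
  obtain ⟨e, -, he⟩ := FiniteField.card (𝓞 K ⧸ P) p
  refine ⟨p, hpp, by rw [← Ideal.Quotient.eq_zero_iff_mem, map_natCast, CharP.cast_eq_zero], ?_⟩
  rw [← card_quotient, he]
  exact dvd_pow_self p e.ne_zero

theorem not_dvd_of_coprime {q : ℕ} (hq : q.Prime) {I : Ideal (𝓞 K)} (hqI : q ∣ Ideal.absNorm I)
    (h : l.Coprime (Ideal.absNorm I)) : ¬ q ∣ l := fun hql => by
  rw [(Nat.prime_dvd_prime_iff_eq hq hl.out).mp hql] at hqI
  exact hl.out.coprime_iff_not_dvd.mp h hqI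

theorem coprime_absNorm_of_mem_prime {I J : Ideal (𝓞 K)} (h : l.Coprime (Ideal.absNorm I)) (hd : J ∣ I) :
    l.Coprime (Ideal.absNorm J) :=
  coprime_of_dvd hd h

/-- The product of the conjugates of an ideal prime to `l`. -/
theorem prod_map_intAut {I : Ideal (𝓞 K)} (hI0 : I ≠ 0) (hI : l.Coprime (Ideal.absNorm I)) :
    ∏ σ : K ≃ₐ[ℚ] K, I.map (intAut σ : 𝓞 K →+* 𝓞 K) = Ideal.span {((Ideal.absNorm I : ℕ) : 𝓞 K)} := by
  have : NeZero l := ⟨hl.out.ne_zero⟩
  induction I using induction_on_prime with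
  | h₁ => exact absurd rfl hI0
  | h₂ J hJ =>
    simp only [isUnit_iff_eq_one.mp hJ, Ideal.one_eq_top, Ideal.map_top, Ideal.absNorm_top, Nat.cast_one,
      Ideal.span_singleton_one]
    rw [← Ideal.one_eq_top]
    exact Finset.prod_eq_one fun _ _ => rfl
  | h₃ J P hJ hP ih =>
    have hPI := coprime_of_dvd (dvd_mul_right P J) hI
    have := (Ideal.isPrime_of_prime hP).isMaximal hP.ne_zero
    obtain ⟨q, hq, hqP, hqN⟩ := exists_prime_mem P
    have := Fact.mk hq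
    let v : HeightOneSpectrum (𝓞 K) := ⟨P, Ideal.isPrime_of_prime hP, hP.ne_zero⟩
    have h := prod_conjAt_eq_span_pow (m := l) (v := v) hqP (not_dvd_of_coprime hq hqN hPI)
    rw [← Nat.cast_pow, ← absNorm_eq (v := v) hqP (not_dvd_of_coprime hq hqN hPI)] at h
    have hP' : ∏ σ : K ≃ₐ[ℚ] K, P.map (intAut σ : 𝓞 K →+* 𝓞 K) = Ideal.span {((Ideal.absNorm P : ℕ) : 𝓞 K)} := by
      rw [← h]
      refine Fintype.prod_equiv (Equiv.inv _) _ _ fun σ => ?_
      show _ = P.map (intAut σ⁻¹⁻¹ : 𝓞 K →+* 𝓞 K)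
      rw [inv_inv]
    simp only [Ideal.map_mul, Finset.prod_mul_distrib]
    rw [hP', ih hJ (coprime_of_dvd (dvd_mul_left J P) hI), Ideal.span_singleton_mul_span_singleton, map_mul,
      Nat.cast_mul]

/-- **The element of an ideal.** -/
theorem exists_phi (hl2 : l ≠ 2) {I : Ideal (𝓞 K)} (hI0 : I ≠ 0) (hI : l.Coprime (Ideal.absNorm I)) :
    ∃ Φ : 𝓞 K, stickIdeal l I = Ideal.span {Φ} ∧ (l : 𝓞 K) ∣ Φ - 1 ∧
      (∀ φ : K →+* ℂ, ‖φ (Φ : K)‖ ^ 2 = ((Ideal.absNorm I : ℕ) : ℝ) ^ l) ∧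
      ∀ B : Ideal (𝓞 K), B ≠ 0 → l.Coprime (Ideal.absNorm B) → (Ideal.absNorm I).Coprime (Ideal.absNorm B) →
        symbol l B Φ = symbol l I ((Ideal.absNorm B : ℕ) : 𝓞 K) := by
  have : NeZero l := ⟨hl.out.ne_zero⟩
  induction I using induction_on_prime with
  | h₁ => exact absurd rfl hI0
  | h₂ J hJ =>
    refine ⟨1, ?_, by rw [sub_self]; exact dvd_zero _, fun φ => ?_, fun B _ hB _ => ?_⟩
    · rw [isUnit_iff_eq_one.mp hJ, Ideal.span_singleton_one, ← Ideal.one_eq_top]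
      refine Finset.prod_eq_one fun σ _ => ?_
      rw [Ideal.one_eq_top, Ideal.map_top, Ideal.top_pow]
    · simp [isUnit_iff_eq_one.mp hJ, Ideal.one_eq_top]
    · rw [isUnit_iff_eq_one.mp hJ, Ideal.one_eq_top, symbol_top, symbol_one_right hB]
  | h₃ J P hJ hP ih =>
    have hPI := coprime_of_dvd (dvd_mul_right P J) hI
    have := (Ideal.isPrime_of_prime hP).isMaximal hP.ne_zero
    obtain ⟨q, hq, hqP, hqN⟩ := exists_prime_mem P
    have := Fact.mk hq
    let v : HeightOneSpectrum (𝓞 K) := ⟨P, Ideal.isPrime_of_prime hP, hP.ne_zero⟩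
    obtain ⟨Φ₁, h1, h1l, h1a, h1s, -⟩ := exists_phi_prime (v := v) hl2 hqP (not_dvd_of_coprime hq hqN hPI)
    obtain ⟨Φ₂, h2, h2l, h2a, h2s⟩ := ih hJ (coprime_of_dvd (dvd_mul_left J P) hI)
    have hone : ∀ B : Ideal (𝓞 K), B ≠ 0 → l.Coprime (Ideal.absNorm B) → q.Coprime (Ideal.absNorm B) →
        symbol l B Φ₁ = symbol l P ((Ideal.absNorm B : ℕ) : 𝓞 K) := by
      intro B hB0 hB hqB
      induction B using induction_on_prime with
      | h₁ => exact absurd rfl hB0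
      | h₂ C hC =>
        rw [isUnit_iff_eq_one.mp hC, Ideal.one_eq_top, symbol_top, Ideal.absNorm_top, Nat.cast_one,
          symbol_one_right hPI]
      | h₃ C R hC hR ih' =>
        have := (Ideal.isPrime_of_prime hR).isMaximal hR.ne_zero
        have hlR : (l : 𝓞 K) ∉ R := natCast_notMem this.ne_top (coprime_of_dvd (dvd_mul_right R C) hB)
        have hqR : (q : 𝓞 K) ∉ R := natCast_notMem this.ne_top (coprime_of_dvd (dvd_mul_right R C) hqB)
        rw [symbol_mul_left hR.ne_zero hC, symbol_prime hR, h1s R this hlR hqR,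
          ih' hC (coprime_of_dvd (dvd_mul_left C R) hB) (coprime_of_dvd (dvd_mul_left C R) hqB), map_mul,
          Nat.cast_mul, symbol_mul_right hPI, symbol_prime hP, symbol_prime hP]
    refine ⟨Φ₁ * Φ₂, ?_, ?_, fun φ => ?_, fun B hB0 hB hIB => ?_⟩
    · rw [stickIdeal_mul, h2, ← Ideal.span_singleton_mul_span_singleton, ← h1]
      rfl
    · rw [show Φ₁ * Φ₂ - 1 = (Φ₁ - 1) * Φ₂ + (Φ₂ - 1) by ring]
      exact dvd_add (h1l.mul_right _) h2l
    · rw [show ((Φ₁ * Φ₂ : 𝓞 K) : K) = (Φ₁ : K) * (Φ₂ : K) from map_mul _ _ _, map_mul, norm_mul, mul_pow, h1a φ,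
        h2a φ, map_mul, Nat.cast_mul, mul_pow]
    · rw [map_mul] at hIB
      rw [symbol_mul_right hB, symbol_mul_left hP.ne_zero hJ,
        hone B hB0 hB ((hIB.coprime_mul_right).coprime_dvd_left hqN), h2s B hB0 hB hIB.coprime_mul_left]

end FA.PowerReciprocity
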