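import Fermat.Agent.PowerReciprocity.IdealPower
import Mathlib.NumberTheory.JacobiSum.Basic
import Mathlib.RingTheory.UniqueFactorizationDomain.NormalizedFactors

/-!
# Jacobi sums at a prime

For a prime `P` of `ℚ(ζ_l)` prime to `l` and `a`, `b`, `a + b` prime to `l`, the Jacobi sum
`J = -∑ (x / P) ^ a ((1 - x) / P) ^ b` has absolute value `√(N P)` at every embedding, is `1` modulo `(ζ - 1) ^ 2`
and generates the product of the `σ⁻¹ P` over the half of the Galois group with `a t % l + b t % l < l`, `t = a(σ)`.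
-/

set_option autoImplicit false
set_option linter.unusedSectionVars false

noncomputable section

open NumberField IsDedekindDomain
open scoped Classical

namespace FA.PowerReciprocity

open FA.IwasawaStructure FA.GaussValuation

variable {K : Type*} [Field K] [NumberField K]

/-- The exponents of the CM type of `J`. -/
def cmExpo (l a b t : ℕ) : ℕ := if a * t % l + b * t % l < l then 1 else 0

/-- `J_{a,b}(P)`. -/
def jacobiPrime (l a b : ℕ) (P : Ideal (𝓞 K)) : 𝓞 K :=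
  -∑ᶠ y : 𝓞 K ⧸ P, symbolPrime l P (Function.surjInv Ideal.Quotient.mk_surjective y) ^ a *
    symbolPrime l P (1 - Function.surjInv Ideal.Quotient.mk_surjective y) ^ b

/-- `∏ (σ⁻¹ I) ^ e(σ)`. -/
def cmIdeal (l : ℕ) [Fact l.Prime] [IsCyclotomicExtension {l} ℚ K] (a b : ℕ) (I : Ideal (𝓞 K)) : Ideal (𝓞 K) :=
  haveI : NeZero l := ⟨(Fact.out : l.Prime).ne_zero⟩
  ∏ σ : K ≃ₐ[ℚ] K, I.map (intAut σ⁻¹ : 𝓞 K →+* 𝓞 K) ^ cmExpo l a b (expo l σ)

theorem mod_add_mod_of_dvd_add {l x y : ℕ} (hl : 0 < l) (hx : ¬ l ∣ x) (h : l ∣ x + y) : x % l + y % l = l := by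
  have hu : 0 < x % l := Nat.pos_of_ne_zero fun e => hx (Nat.dvd_of_mod_eq_zero e)
  have := Nat.mod_lt x hl
  have := Nat.mod_lt y hl
  obtain ⟨c, hc⟩ : l ∣ x % l + y % l := Nat.dvd_of_mod_eq_zero (by
    rw [← Nat.add_mod]
    exact Nat.mod_eq_zero_of_dvd h)
  rcases c with _ | _ | c
  · omega
  · omega
  · nlinarith

theorem residues_ne {l a b t : ℕ} (hl : l.Prime) (hab : ¬ l ∣ a + b) (ht : ¬ l ∣ t) :
    a * t % l + b * t % l ≠ l := fun e =>
  (hl.dvd_mul.mp (Nat.dvd_of_mod_eq_zero (show (a + b) * t % l = 0 by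
    rw [add_mul, Nat.add_mod, e, Nat.mod_self]))).elim hab ht

theorem compl_residues {l a b A B t : ℕ} (hl : l.Prime) (ha : ¬ l ∣ a) (hb : ¬ l ∣ b) (hab : ¬ l ∣ a + b)
    (hA : l ∣ A + a) (hB : l ∣ B + b) (ht : ¬ l ∣ t) :
    A * t % l + B * t % l = (A + B) * t % l + l * cmExpo l a b t := by
  have hA' := mod_add_mod_of_dvd_add hl.pos (x := a * t) (y := A * t) (fun e => (hl.dvd_mul.mp e).elim ha ht)
    (by rw [← add_mul, add_comm a]; exact hA.mul_right t)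
  have hB' := mod_add_mod_of_dvd_add hl.pos (x := b * t) (y := B * t) (fun e => (hl.dvd_mul.mp e).elim hb ht)
    (by rw [← add_mul, add_comm b]; exact hB.mul_right t)
  have hne := residues_ne hl hab ht
  have h1 : 0 < a * t % l := Nat.pos_of_ne_zero fun e => (hl.dvd_mul.mp (Nat.dvd_of_mod_eq_zero e)).elim ha ht
  rw [add_mul A, Nat.add_mod (A * t), cmExpo]
  split_ifs with h
  · have h2 : l ≤ A * t % l + B * t % l := by omega
    have h3 : A * t % l + B * t % l - l < l := by omega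
    rw [Nat.mod_eq_sub_mod h2, Nat.mod_eq_of_lt h3]
    omega
  · rw [Nat.mod_eq_of_lt (a := A * t % l + B * t % l) (by omega)]
    omega

theorem cmExpo_add_compl {l a b t t' : ℕ} (hl : l.Prime) (ha : ¬ l ∣ a) (hb : ¬ l ∣ b) (hab : ¬ l ∣ a + b)
    (ht : ¬ l ∣ t) (h : l ∣ t + t') : cmExpo l a b t + cmExpo l a b t' = 1 := by
  have hA := mod_add_mod_of_dvd_add hl.pos (x := a * t) (y := a * t') (fun e => (hl.dvd_mul.mp e).elim ha ht)
    (by rw [← mul_add]; exact h.mul_left a)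
  have hB := mod_add_mod_of_dvd_add hl.pos (x := b * t) (y := b * t') (fun e => (hl.dvd_mul.mp e).elim hb ht)
    (by rw [← mul_add]; exact h.mul_left b)
  have hne := residues_ne hl hab ht
  rw [cmExpo, cmExpo]
  split_ifs <;> omega

theorem exists_compl {l a : ℕ} (hl : l.Prime) (ha : ¬ l ∣ a) : ∃ A, l ∣ A + a ∧ ¬ l ∣ A := by
  have h0 : 0 < a % l := Nat.pos_of_ne_zero fun e => ha (Nat.dvd_of_mod_eq_zero e)
  have h1 := Nat.mod_lt a hl.pos
  refine ⟨l - a % l, ⟨1 + a / l, ?_⟩, fun e => ?_⟩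
  · have := Nat.div_add_mod a l
    rw [mul_add, mul_one]
    omega
  · have := Nat.le_of_dvd (by omega) e
    omega

variable {l : ℕ} [hl : Fact l.Prime] [IsCyclotomicExtension {l} ℚ K]

theorem not_dvd_expo (σ : K ≃ₐ[ℚ] K) : haveI : NeZero l := ⟨hl.out.ne_zero⟩; ¬ l ∣ expo l σ := by
  have : NeZero l := ⟨hl.out.ne_zero⟩
  exact hl.out.coprime_iff_not_dvd.mp (coprime_expo (m := l) σ).symm

theorem exists_expo_eq {k : ℕ} (hk : ¬ l ∣ k) : haveI : NeZero l := ⟨hl.out.ne_zero⟩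
    ∃ s : K ≃ₐ[ℚ] K, expo l s = k % l ∧ ∀ σ : K ≃ₐ[ℚ] K, expo l (σ * s) = expo l σ * k % l := by
  have : NeZero l := ⟨hl.out.ne_zero⟩
  set G := IsCyclotomicExtension.Rat.galEquivZMod l K
  set u := ZMod.unitOfCoprime k (hl.out.coprime_iff_not_dvd.mpr hk).symm
  refine ⟨G.symm u, ?_, fun σ => ?_⟩
  · show ((G (G.symm u) : (ZMod l)ˣ) : ZMod l).val = _
    rw [G.apply_symm_apply, ZMod.coe_unitOfCoprime, ZMod.val_natCast]
  · show ((G (σ * G.symm u) : (ZMod l)ˣ) : ZMod l).val = ((G σ : (ZMod l)ˣ) : ZMod l).val * k % l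
    rw [map_mul, G.apply_symm_apply, Units.val_mul, ZMod.val_mul, ZMod.coe_unitOfCoprime, ZMod.val_natCast,
      Nat.mul_mod_mod]

section prime

variable {P : Ideal (𝓞 K)} [hP : P.IsMaximal]

omit hl [IsCyclotomicExtension {l} ℚ K] in
theorem jacobiPrime_eq [Fintype (𝓞 K ⧸ P)] {χ : MulChar (𝓞 K ⧸ P) (𝓞 K)}
    (hχ : ∀ x, χ (Ideal.Quotient.mk P x) = symbolPrime l P x) {a b : ℕ} (ha : a ≠ 0) (hb : b ≠ 0) :
    jacobiPrime l a b P = -jacobiSum (χ ^ a) (χ ^ b) := by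
  rw [jacobiPrime, finsum_eq_sum_of_fintype, jacobiSum]
  refine congrArg Neg.neg (Finset.sum_congr rfl fun y _ => ?_)
  rw [MulChar.pow_apply' _ ha, MulChar.pow_apply' _ hb, ← hχ, ← hχ, map_sub, map_one,
    Function.surjInv_eq Ideal.Quotient.mk_surjective]

/-- The symbol is not trivial. -/
theorem exists_symbolPrime_ne_one (hlP : (l : 𝓞 K) ∉ P) : ∃ x, x ∉ P ∧ symbolPrime l P x ≠ 1 := by
  let := Ideal.Quotient.field P
  by_contra h
  push Not at h
  have hz := isPrimitiveRoot_mk hlP (zetaInt_isPrimitiveRoot (l := l) (K := K))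
  have hsurj : Function.Surjective fun u : (𝓞 K ⧸ P)ˣ => u ^ l := fun u => by
    obtain ⟨x, hx⟩ := Ideal.Quotient.mk_surjective (u : 𝓞 K ⧸ P)
    have hxP : x ∉ P := fun e => u.ne_zero (hx ▸ Ideal.Quotient.eq_zero_iff_mem.mpr e)
    obtain ⟨y, hy⟩ := (symbolPrime_eq_one_iff hlP hxP).mp (h x hxP)
    have h1 : Ideal.Quotient.mk P y ^ l = u := by rw [← hx, Ideal.Quotient.eq.mpr hy, map_pow]
    refine ⟨Units.mk0 (Ideal.Quotient.mk P y) fun e => u.ne_zero (by rw [← h1, e, zero_pow hl.out.ne_zero]),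
      Units.ext ?_⟩
    rw [Units.val_pow_eq_pow_val, Units.val_mk0, h1]
  have h1 : (hz.isUnit hl.out.ne_zero).unit = 1 := Finite.injective_iff_surjective.mpr hsurj (Units.ext (by
    simp only [Units.val_pow_eq_pow_val, IsUnit.unit_spec, hz.pow_eq_one, one_pow, Units.val_one]))
  exact hz.ne_one hl.out.one_lt (congrArg Units.val h1)

theorem char_pow_card [Fintype (𝓞 K ⧸ P)] (hlP : (l : 𝓞 K) ∉ P) {χ : MulChar (𝓞 K ⧸ P) (𝓞 K)}
    (hχ : ∀ x, χ (Ideal.Quotient.mk P x) = symbolPrime l P x) : χ ^ l = 1 := by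
  let := Ideal.Quotient.field P
  refine MulChar.ext fun u => ?_
  obtain ⟨x, hx⟩ := Ideal.Quotient.mk_surjective (u : 𝓞 K ⧸ P)
  have hxP : x ∉ P := fun e => u.ne_zero (hx ▸ Ideal.Quotient.eq_zero_iff_mem.mpr e)
  rw [MulChar.pow_apply_coe, MulChar.one_apply_coe, ← hx, hχ, (symbolPrime_spec hlP hxP).1]

theorem char_pow_ne_one [Fintype (𝓞 K ⧸ P)] (hlP : (l : 𝓞 K) ∉ P) {χ : MulChar (𝓞 K ⧸ P) (𝓞 K)}
    (hχ : ∀ x, χ (Ideal.Quotient.mk P x) = symbolPrime l P x) {k : ℕ} (hk : ¬ l ∣ k) : χ ^ k ≠ 1 := by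
  let := Ideal.Quotient.field P
  intro h
  have h1 : χ ≠ 1 := fun e => by
    obtain ⟨x, hxP, hx⟩ := exists_symbolPrime_ne_one hlP
    have hu : Ideal.Quotient.mk P x ≠ 0 := fun e' => hxP (Ideal.Quotient.eq_zero_iff_mem.mp e')
    exact hx (by rw [← hχ, e, MulChar.one_apply (isUnit_iff_ne_zero.mpr hu)])
  exact hk ((orderOf_eq_prime (char_pow_card hlP hχ) h1) ▸ orderOf_dvd_of_pow_eq_one h)

end prime

/-- **The Jacobi sum at a prime**. -/
theorem jacobi_spec_aux (hl2 : l ≠ 2) {q : ℕ} [hq : Fact q.Prime] {v : HeightOneSpectrum (𝓞 K)}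
    (hqv : (q : 𝓞 K) ∈ v.asIdeal) (hql : ¬ q ∣ l) {a b : ℕ} (ha : ¬ l ∣ a) (hb : ¬ l ∣ b) (hab : ¬ l ∣ a + b) :
    Ideal.span {jacobiPrime l a b v.asIdeal} = cmIdeal l a b v.asIdeal ∧
      (∀ φ : K →+* ℂ, ‖φ (jacobiPrime l a b v.asIdeal : K)‖ ^ 2 = ((Ideal.absNorm v.asIdeal : ℕ) : ℝ)) ∧
      ∀ z : 𝓞 K, IsPrimitiveRoot z l → (z - 1) ^ 2 ∣ jacobiPrime l a b v.asIdeal - 1 := by
  have : NeZero l := ⟨hl.out.ne_zero⟩
  have := v.isMaximal
  let := Fintype.ofFinite (𝓞 K ⧸ v.asIdeal)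
  let := Ideal.Quotient.field v.asIdeal
  have hlv := notMem_of_not_dvd hqv hql
  obtain ⟨Φ, hspan, -, hΦabs, -, h5⟩ := exists_phi_prime hl2 hqv hql
  obtain ⟨χ, hχ, hg⟩ := h5
  set η := χ⁻¹ with hη
  have hχl := char_pow_card hlv hχ
  have ha0 : a ≠ 0 := fun e => ha (e ▸ dvd_zero l)
  have hb0 : b ≠ 0 := fun e => hb (e ▸ dvd_zero l)
  obtain ⟨A, hA, hA0⟩ := exists_compl hl.out ha
  obtain ⟨B, hB, hB0⟩ := exists_compl hl.out hb
  have hAB : ¬ l ∣ A + B := fun e => hab ((Nat.dvd_add_right e).mp (by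
    rw [show A + B + (a + b) = A + a + (B + b) by ring]; exact dvd_add hA hB))
  have hpow : ∀ {c C : ℕ}, l ∣ C + c → η ^ C = χ ^ c := fun {c C} h => by
    obtain ⟨d, hd⟩ := h
    rw [hη, inv_pow]
    exact inv_eq_of_mul_eq_one_right (by rw [← pow_add, hd, pow_mul, hχl, one_pow])
  obtain ⟨sA, hsA, hsA'⟩ := exists_expo_eq (K := K) hA0
  obtain ⟨sB, hsB, hsB'⟩ := exists_expo_eq (K := K) hB0
  obtain ⟨sC, hsC, hsC'⟩ := exists_expo_eq (K := K) hAB
  have hgal : ∀ (k : ℕ) (s : K ≃ₐ[ℚ] K), expo l s = k % l →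
      ∀ (φ : K →+* ℂ) (ψ : AddChar (𝓞 K ⧸ v.asIdeal) ℂ), ψ.IsPrimitive →
        φ.comp (algebraMap (𝓞 K) K) (intAut s Φ) =
          (-gaussSum ((η ^ k).ringHomComp (φ.comp (algebraMap (𝓞 K) K))) ψ) ^ l := by
    intro k s hs φ ψ hψ
    have hs2 : η.ringHomComp ((φ.comp s.toRingEquiv.toRingHom).comp (algebraMap (𝓞 K) K)) =
        (η ^ k).ringHomComp (φ.comp (algebraMap (𝓞 K) K)) := by
      refine MulChar.ext fun u => ?_
      rw [MulChar.ringHomComp_apply, MulChar.ringHomComp_apply, MulChar.pow_apply_coe]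
      have h1 : η u ^ l = 1 := by rw [← MulChar.pow_apply_coe, hη, inv_pow, hχl, inv_one, MulChar.one_apply_coe]
      show φ (s ((η u : 𝓞 K) : K)) = φ ((η u ^ k : 𝓞 K) : K)
      rw [← intAut_coe, intAut_of_pow_eq_one s h1, hs, ← pow_eq_pow_mod _ h1]
    rw [← hs2]
    exact hg (φ.comp s.toRingEquiv.toRingHom) ψ hψ
  have hqP : CharP (𝓞 K ⧸ v.asIdeal) q := by
    refine (CharP.charP_iff_prime_eq_zero hq.out).mpr ?_
    rw [← map_natCast (Ideal.Quotient.mk v.asIdeal), Ideal.Quotient.eq_zero_iff_mem]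
    exact hqv
  let := ZMod.algebra (𝓞 K ⧸ v.asIdeal) q
  set J := jacobiPrime l a b v.asIdeal with hJ
  have hJχ : J = -jacobiSum (χ ^ a) (χ ^ b) := jacobiPrime_eq hχ ha0 hb0
  -- the identity with the elements of the conjugates
  have hid : intAut sC Φ * J ^ l = intAut sA Φ * intAut sB Φ := by
    obtain ⟨φ⟩ : Nonempty (K →+* ℂ) := inferInstance
    have hζ := Complex.isPrimitiveRoot_exp q hq.out.ne_zero
    set ψ : AddChar (𝓞 K ⧸ v.asIdeal) ℂ := traceChar hζ.pow_eq_one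
    have hprim : ψ.IsPrimitive := AddChar.IsPrimitive.of_ne_one (traceChar_ne_one hζ)
    set g := φ.comp (algebraMap (𝓞 K) K) with hg'
    have hinj : Function.Injective g := φ.injective.comp RingOfIntegers.coe_injective
    have hne : (η ^ A).ringHomComp g * (η ^ B).ringHomComp g ≠ 1 := by
      rw [← MulChar.ringHomComp_mul, ← pow_add, MulChar.ringHomComp_ne_one_iff hinj, hη, inv_pow, inv_ne_one]
      exact char_pow_ne_one hlv hχ hAB
    have hprod : gaussSum ((η ^ (A + B)).ringHomComp g) ψ * g (jacobiSum (χ ^ a) (χ ^ b)) =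
        gaussSum ((η ^ A).ringHomComp g) ψ * gaussSum ((η ^ B).ringHomComp g) ψ := by
      rw [← hpow hA, ← hpow hB, ← jacobiSum_ringHomComp, pow_add, MulChar.ringHomComp_mul]
      exact jacobiSum_mul_nontrivial hne ψ
    refine hinj ?_
    rw [map_mul, map_mul, map_pow, hgal _ _ hsA φ ψ hprim, hgal _ _ hsB φ ψ hprim, hgal _ _ hsC φ ψ hprim,
      ← mul_pow, ← mul_pow, hJχ, map_neg, neg_mul_neg, neg_mul_neg, hprod]
  refine ⟨?_, fun φ => ?_, fun z hz => ?_⟩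
  -- the ideal
  · have hspanK : ∀ (k : ℕ) (s : K ≃ₐ[ℚ] K), (∀ σ, expo l (σ * s) = expo l σ * k % l) →
        Ideal.span {intAut s Φ} = ∏ τ : K ≃ₐ[ℚ] K, (conjAt v τ).asIdeal ^ (expo l τ * k % l) := by
      intro k s hs
      rw [show Ideal.span {intAut s Φ} = (Ideal.span {Φ}).map (intAut s : 𝓞 K →+* 𝓞 K) by
          rw [Ideal.map_span, Set.image_singleton]; rfl,
        ← hspan, ← Ideal.mapHom_apply, map_prod]
      refine (Fintype.prod_equiv (Equiv.mulRight s) _ _ fun τ => ?_).symm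
      rw [map_pow, Ideal.mapHom_apply, Equiv.coe_mulRight, hs]
      refine congrArg (· ^ _) ?_
      show v.asIdeal.map (intAut τ⁻¹ : 𝓞 K →+* 𝓞 K) =
        (v.asIdeal.map (intAut (τ * s)⁻¹ : 𝓞 K →+* 𝓞 K)).map (intAut s : 𝓞 K →+* 𝓞 K)
      rw [Ideal.map_map]
      refine congrArg (Ideal.map · v.asIdeal) (RingHom.ext fun x => ?_)
      show intAut τ⁻¹ x = intAut s (intAut (τ * s)⁻¹ x)
      rw [intAut_comp, mul_inv_rev, mul_inv_cancel_left]
    have h := congrArg (fun x : 𝓞 K => Ideal.span {x}) hid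
    simp only [← Ideal.span_singleton_mul_span_singleton, ← Ideal.span_singleton_pow] at h
    rw [hspanK _ _ hsC', hspanK _ _ hsA', hspanK _ _ hsB', ← Finset.prod_mul_distrib,
      Finset.prod_congr rfl fun τ _ => show (conjAt v τ).asIdeal ^ (expo l τ * A % l) *
          (conjAt v τ).asIdeal ^ (expo l τ * B % l) = (conjAt v τ).asIdeal ^ (expo l τ * (A + B) % l) *
            ((conjAt v τ).asIdeal ^ cmExpo l a b (expo l τ)) ^ l by
        rw [← pow_add, ← pow_mul, ← pow_add, mul_comm (expo l τ) A, mul_comm (expo l τ) B,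
          mul_comm (expo l τ) (A + B), compl_residues hl.out ha hb hab hA hB (not_dvd_expo τ),
          mul_comm l],
      Finset.prod_mul_distrib, Finset.prod_pow] at h
    exact pow_left_injective hl.out.ne_zero (mul_left_cancel₀
      (Finset.prod_ne_zero_iff.mpr fun τ _ => pow_ne_zero _ (conjAt v τ).ne_bot) h)
  -- the absolute values
  · have hs : ∀ s : K ≃ₐ[ℚ] K, ‖φ (intAut s Φ : K)‖ ^ 2 = ((Ideal.absNorm v.asIdeal : ℕ) : ℝ) ^ l :=
      fun s => hΦabs (φ.comp s.toRingEquiv.toRingHom)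
    have h := congrArg (fun x : 𝓞 K => ‖φ (algebraMap (𝓞 K) K x)‖ ^ 2) hid
    simp only [map_mul, map_pow, norm_mul, norm_pow, mul_pow] at h
    rw [hs, hs, hs, ← pow_mul, mul_comm l 2, pow_mul] at h
    have hQ : ((Ideal.absNorm v.asIdeal : ℕ) : ℝ) ^ l ≠ 0 := pow_ne_zero _ (Nat.cast_ne_zero.mpr fun e =>
      v.ne_bot (Ideal.absNorm_eq_zero_iff.mp e))
    exact (pow_left_inj₀ (sq_nonneg _) (Nat.cast_nonneg _) hl.out.ne_zero).mp (mul_left_cancel₀ hQ h)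
  -- the congruence
  · obtain ⟨w, -, hw⟩ := exists_jacobiSum_eq_neg_one_add (χ := χ ^ a) (ψ := χ ^ b)
      (show 2 < l from lt_of_le_of_ne hl.out.two_le (Ne.symm hl2))
      (by rw [← pow_mul, mul_comm, pow_mul, hχl, one_pow]) (by rw [← pow_mul, mul_comm, pow_mul, hχl, one_pow])
      (by rw [card_quotient]; exact dvd_absNorm_sub_one hlv) hz
    exact ⟨-w, by rw [hJχ, hw]; ring⟩

/-- **The Jacobi sum at a prime ideal prime to `l`**. -/
theorem jacobiPrime_spec (hl2 : l ≠ 2) {P : Ideal (𝓞 K)} [hP : P.IsMaximal] (hlP : (l : 𝓞 K) ∉ P) {a b : ℕ}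
    (ha : ¬ l ∣ a) (hb : ¬ l ∣ b) (hab : ¬ l ∣ a + b) :
    Ideal.span {jacobiPrime l a b P} = cmIdeal l a b P ∧
      (∀ φ : K →+* ℂ, ‖φ (jacobiPrime l a b P : K)‖ ^ 2 = ((Ideal.absNorm P : ℕ) : ℝ)) ∧
      ∀ z : 𝓞 K, IsPrimitiveRoot z l → (z - 1) ^ 2 ∣ jacobiPrime l a b P - 1 := by
  obtain ⟨q, hq, hqP, -⟩ := exists_prime_mem P
  have := Fact.mk hq
  refine jacobi_spec_aux (v := ⟨P, hP.isPrime, ?_⟩) hl2 hqP (fun e => hlP ?_) ha hb hab
  · exact Ring.ne_bot_of_isMaximal_of_not_isField hP (RingOfIntegers.not_isField K)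
  · obtain ⟨c, rfl⟩ := e
    rw [Nat.cast_mul]
    exact P.mul_mem_right _ hqP

end FA.PowerReciprocity
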